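import Fermat.Agent.LT.CuspType.Level
import Fermat.Agent.LT.HeckeOp
import Mathlib.GroupTheory.GroupAction.Quotient

/-!
# The idempotent of the depth zero cuspidal type

`cuspFn hU ε` is supported on `typeSub S U`; there it is `2 ^ #S / [typeSub : U]` times the product
over the places of the matrix coefficient at the eigenline of sign `(-1) ^ ε`.
-/

set_option autoImplicit false

noncomputable section

open Matrix
open scoped NumberField Classical

namespace Fermat.Agent.LT.CuspType

open Places

variable {F : Type*} [Field F] [NumberField F] {S : ThreeSet F} {U : Level F}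

/-- `A_f* · GL₂(Ô)` meets only finitely many cosets of a level. -/
theorem finite_image_maxSub (U : Level F) :
    (QuotientGroup.mk '' (maxSub F : Set (GLFin F)) : Set (GLFin F ⧸ U.toSubgroup)).Finite := by
  obtain ⟨N, hN, hU⟩ := U.exists_principal
  obtain ⟨κ, hκ, cls, hcls⟩ := Reduction.exists_residue (F := F) N hN
  have hmem : ∀ c : ↥(QuotientGroup.mk '' (maxSub F : Set (GLFin F)) : Set (GLFin F ⧸ U.toSubgroup)),
      ∃ k : GLFin F, Reduction.IntGL k ∧ (QuotientGroup.mk k : GLFin F ⧸ U.toSubgroup) = c := by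
    rintro ⟨_, _, ⟨a, k, hk, rfl⟩, rfl⟩
    refine ⟨k, hk, QuotientGroup.eq.mpr ?_⟩
    rw [scalarFin_comm, inv_mul_cancel_left]
    exact U.scalar_mem a
  choose k hk hkc using hmem
  rw [← Set.finite_coe_iff]
  refine Finite.of_injective (fun c (p : Fin 2 × Fin 2) => cls ((k c).val p.1 p.2)) fun c d h => ?_
  have hz : ∀ i j, ∃ z ∈ integralAdele F, (k d).val i j = (k c).val i j + (N : FinAdele F) * z :=
    fun i j => hcls _ _ ((hk d).1 i j) ((hk c).1 i j) (congrFun h (i, j)).symm
  choose z hz ez using hz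
  refine Subtype.ext ?_
  rw [← hkc c, ← hkc d, QuotientGroup.eq]
  refine hU _ fun i j => ⟨((k c)⁻¹.val * Matrix.of z) i j, ?_,
    -(((k d)⁻¹.val * Matrix.of z) i j), ?_, ?_, ?_⟩
  · simp only [Matrix.mul_apply]
    exact sum_mem fun p _ => mul_mem ((hk c).2 i p) (hz p j)
  · simp only [Matrix.mul_apply]
    exact neg_mem (sum_mem fun p _ => mul_mem ((hk d).2 i p) (hz p j))
  · have h1 := congrFun (congrFun (Units.inv_mul (k c)) i) j
    simp only [Matrix.mul_apply, Fin.sum_univ_two] at h1
    simp only [Units.val_mul, Matrix.mul_apply, Fin.sum_univ_two, ez, Matrix.of_apply]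
    linear_combination h1
  · have h1 := congrFun (congrFun (Units.inv_mul (k d)) i) j
    simp only [Matrix.mul_apply, Fin.sum_univ_two] at h1
    simp only [_root_.mul_inv_rev, inv_inv, Units.val_mul, Matrix.mul_apply, Fin.sum_univ_two,
      Matrix.of_apply]
    simp only [ez] at h1
    linear_combination h1

variable (S U) in
/-- The finite quotient. -/
abbrev TypeQuot : Type _ := typeSub S U ⧸ U.toSubgroup.subgroupOf (typeSub S U)

/-- The inclusion in the cosets of `U`. -/
def quotIncl : TypeQuot S U → GLFin F ⧸ U.toSubgroup :=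
  Quotient.map' Subtype.val fun a b h => by
    rw [QuotientGroup.leftRel_apply] at h ⊢
    exact h

/-- `quotIncl` on the class of an element. -/
theorem quotIncl_mk (g : typeSub S U) :
    quotIncl (QuotientGroup.mk g : TypeQuot S U) = QuotientGroup.mk g.1 := rfl

/-- The finite quotient embeds in the cosets of `U`. -/
theorem quotIncl_injective : Function.Injective (quotIncl (S := S) (U := U)) := by
  intro a b
  refine QuotientGroup.induction_on a fun g => QuotientGroup.induction_on b fun h e => ?_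
  rw [quotIncl_mk, quotIncl_mk, QuotientGroup.eq] at e
  exact QuotientGroup.eq.mpr e

/-- The quotient of the type is finite. -/
instance finite_typeQuot : Finite (TypeQuot S U) := by
  have := (finite_image_maxSub U).to_subtype
  refine Finite.of_injective
    (fun q => (⟨quotIncl q, ?_⟩ :
      ↥(QuotientGroup.mk '' (maxSub F : Set (GLFin F)) : Set (GLFin F ⧸ U.toSubgroup))))
    fun a b h => quotIncl_injective (congrArg Subtype.val h)
  induction q using QuotientGroup.induction_on with
  | H g => exact ⟨g.1, typeSub_le_maxSub S U g.2, rfl⟩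

/-- A chosen enumeration of the finite quotient of the type. -/
noncomputable instance fintype_typeQuot : Fintype (TypeQuot S U) := Fintype.ofFinite _

/-- A representative. -/
def rep (q : TypeQuot S U) : GLFin F := (Quotient.out q).1

/-- The chosen representative lies in the group of the type. -/
theorem rep_mem (q : TypeQuot S U) : rep q ∈ typeSub S U := (Quotient.out q).2

theorem mk_rep (q : TypeQuot S U) : (QuotientGroup.mk (rep q) : GLFin F ⧸ U.toSubgroup) =
    quotIncl q := by
  conv_rhs => rw [← QuotientGroup.out_eq' q]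
  rfl

theorem rep_smul (g : typeSub S U) (q : TypeQuot S U) :
    (g.1 * rep q)⁻¹ * rep (g • q) ∈ U.toSubgroup := by
  have h : (QuotientGroup.mk (g * Quotient.out q) : TypeQuot S U) =
      QuotientGroup.mk (Quotient.out (g • q)) := by
    rw [QuotientGroup.out_eq']
    conv_rhs => rw [← QuotientGroup.out_eq' q]
    rfl
  have h' := QuotientGroup.eq.mp h
  exact h'

theorem permVec_rep_smul (hU : IsTypeLevel S U) (g : typeSub S U) (q : TypeQuot S U) :
    permVec S (rep (g • q)) = permVec S g.1 * permVec S (rep q) := by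
  have hu := rep_smul g q
  have hgq : g.1 * rep q ∈ maxSub F := typeSub_le_maxSub S U (mul_mem g.2 (rep_mem q))
  rw [show rep (g • q) = g.1 * rep q * ((g.1 * rep q)⁻¹ * rep (g • q)) by group,
    permVec_mul hgq (level_le_maxSub U hu), permVec_level hU hu, mul_one,
    permVec_mul (typeSub_le_maxSub S U g.2) (typeSub_le_maxSub S U (rep_mem q))]

/-- Sums over the quotient of functions of the permutations. -/
theorem sum_permVec (hU : IsTypeLevel S U) (f : (S.places → Equiv.Perm (Fin 3)) → ℂ) :
    ∑ q : TypeQuot S U, f (permVec S (rep q)) =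
      (Nat.card (TypeQuot S U) : ℂ) / 6 ^ S.places.card * ∑ y, f y := by
  set fib : (S.places → Equiv.Perm (Fin 3)) → ℕ := fun y =>
    (Finset.univ.filter fun q : TypeQuot S U => permVec S (rep q) = y).card with hfib
  have hconst : ∀ y, fib y = fib 1 := by
    intro y
    obtain ⟨l, hl, hly⟩ := exists_permVec_eq (S := S) y
    set g : typeSub S U := ⟨l, away_le_typeSub S U hl⟩
    refine (Finset.card_equiv (MulAction.toPerm g) fun q => ?_).symm
    simp only [Finset.mem_filter, Finset.mem_univ, true_and, MulAction.toPerm_apply,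
      permVec_rep_smul hU, hly, g, mul_eq_left]
  have hsplit : ∀ f : (S.places → Equiv.Perm (Fin 3)) → ℂ,
      ∑ q : TypeQuot S U, f (permVec S (rep q)) = fib 1 * ∑ y, f y := by
    intro f
    rw [← Finset.sum_fiberwise Finset.univ (fun q => permVec S (rep q)), Finset.mul_sum]
    refine Finset.sum_congr rfl fun y _ => ?_
    rw [Finset.sum_congr rfl fun q hq => by rw [(Finset.mem_filter.mp hq).2], Finset.sum_const,
      nsmul_eq_mul, ← hconst y]
  have hcard := hsplit fun _ => 1
  simp only [Finset.sum_const, Finset.card_univ, nsmul_eq_mul, mul_one, Fintype.card_pi,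
    Finset.prod_const, Fintype.card_coe, Fintype.card_perm, Fintype.card_fin] at hcard
  rw [hsplit, Nat.card_eq_fintype_card, hcard]
  push_cast [show Nat.factorial 3 = 6 from rfl]
  rw [mul_div_assoc, div_self (pow_ne_zero _ (by norm_num)), mul_one]

/-- The product of the coefficients. -/
def coefVec (ε : Fin 2) (y : S.places → Equiv.Perm (Fin 3)) : ℂ := ∏ v, coef ε (y v)

omit [NumberField F] in
theorem sum_coefVec_mul (ε : Fin 2) (z : S.places → Equiv.Perm (Fin 3)) :
    ∑ y, coefVec ε y * coefVec ε (y⁻¹ * z) = 3 ^ S.places.card * coefVec ε z := by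
  simp only [coefVec, ← Finset.prod_mul_distrib, Pi.mul_apply, Pi.inv_apply]
  rw [← Fintype.prod_sum fun v y => coef ε y * coef ε (y⁻¹ * z v)]
  simp only [sum_coef_mul_coef, Finset.prod_mul_distrib, Finset.prod_const, Finset.card_univ,
    Fintype.card_coe]

variable (S U) in
/-- The normalising constant. -/
def typeConst : ℂ := 2 ^ S.places.card / (Nat.card (TypeQuot S U) : ℂ)

variable (S U) in
/-- The function of the type. -/
def cuspVal (ε : Fin 2) (g : GLFin F) : ℂ :=
  if g ∈ typeSub S U then typeConst S U * coefVec ε (permVec S g) else 0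

/-- The function of the type on its group. -/
theorem cuspVal_of_mem (ε : Fin 2) {g : GLFin F} (hg : g ∈ typeSub S U) :
    cuspVal S U ε g = typeConst S U * coefVec ε (permVec S g) := if_pos hg

/-- The function of the type vanishes off its group. -/
theorem cuspVal_of_notMem (ε : Fin 2) {g : GLFin F} (hg : g ∉ typeSub S U) :
    cuspVal S U ε g = 0 := if_neg hg

/-- The function of the type is invariant under the level on the left. -/
theorem cuspVal_mul_left (hU : IsTypeLevel S U) (ε : Fin 2) {u : GLFin F}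
    (hu : u ∈ U.toSubgroup) (g : GLFin F) : cuspVal S U ε (u * g) = cuspVal S U ε g := by
  have hu' := level_le_typeSub S U hu
  by_cases hg : g ∈ typeSub S U
  · rw [cuspVal_of_mem ε hg, cuspVal_of_mem ε (mul_mem hu' hg),
      permVec_mul (typeSub_le_maxSub S U hu') (typeSub_le_maxSub S U hg), permVec_level hU hu,
      one_mul]
  · rw [cuspVal_of_notMem ε hg,
      cuspVal_of_notMem ε fun h => hg (((typeSub S U).mul_mem_cancel_left hu').1 h)]

/-- The function of the type is invariant under the level on the right. -/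
theorem cuspVal_mul_right (hU : IsTypeLevel S U) (ε : Fin 2) {u : GLFin F}
    (hu : u ∈ U.toSubgroup) (g : GLFin F) : cuspVal S U ε (g * u) = cuspVal S U ε g := by
  have hu' := level_le_typeSub S U hu
  by_cases hg : g ∈ typeSub S U
  · rw [cuspVal_of_mem ε hg, cuspVal_of_mem ε (mul_mem hg hu'),
      permVec_mul (typeSub_le_maxSub S U hg) (typeSub_le_maxSub S U hu'), permVec_level hU hu,
      mul_one]
  · rw [cuspVal_of_notMem ε hg,
      cuspVal_of_notMem ε fun h => hg (((typeSub S U).mul_mem_cancel_right hu').1 h)]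

/-- The idempotent of the type. -/
def cuspFn (hU : IsTypeLevel S U) (ε : Fin 2) : HeckeFn U where
  toFun := cuspVal S U ε
  left_inv' _ g hu := cuspVal_mul_left hU ε hu g
  right_inv' g _ hu := cuspVal_mul_right hU ε hu g
  finite_support := (finite_image_maxSub U).subset (Set.image_mono fun _g hg =>
    typeSub_le_maxSub S U (by_contra fun h => hg (cuspVal_of_notMem ε h)))

/-- `cuspFn` is `cuspVal` as a function. -/
theorem cuspFn_toFun (hU : IsTypeLevel S U) (ε : Fin 2) :
    (cuspFn hU ε).toFun = cuspVal S U ε := rfl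

/-- `e'(g⁻¹) = conj e'(g)`. -/
theorem cuspFn_inv (hU : IsTypeLevel S U) (ε : Fin 2) (g : GLFin F) :
    (cuspFn hU ε).toFun g⁻¹ = (starRingEnd ℂ) ((cuspFn hU ε).toFun g) := by
  simp only [cuspFn_toFun]
  by_cases hg : g ∈ typeSub S U
  · rw [cuspVal_of_mem ε hg, cuspVal_of_mem ε (inv_mem hg), permVec_inv (typeSub_le_maxSub S U hg)]
    simp [coefVec, typeConst, coef_inv, star_coef, map_ofNat]
  · rw [cuspVal_of_notMem ε hg, cuspVal_of_notMem ε fun h => hg (inv_mem_iff.1 h), map_zero]

/-- The kernel is Hermitian. -/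
theorem cuspFn_kernel_symm (hU : IsTypeLevel S U) (ε : Fin 2) (a b : GLFin F ⧸ U.toSubgroup) :
    (cuspFn hU ε).kernel b a = (starRingEnd ℂ) ((cuspFn hU ε).kernel a b) := by
  refine QuotientGroup.induction_on a fun g => QuotientGroup.induction_on b fun h => ?_
  rw [HeckeFn.kernel_mk, HeckeFn.kernel_mk, ← cuspFn_inv hU ε, _root_.mul_inv_rev, inv_inv]

/-- `e' * e' = e'`. -/
theorem sum_cuspVal_mul (hU : IsTypeLevel S U) (ε : Fin 2) (z : GLFin F) :
    ∑ q : TypeQuot S U, cuspVal S U ε (rep q) * cuspVal S U ε ((rep q)⁻¹ * z) =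
      cuspVal S U ε z := by
  by_cases hz : z ∈ typeSub S U
  swap
  · rw [cuspVal_of_notMem ε hz]
    refine Finset.sum_eq_zero fun q _ => ?_
    rw [cuspVal_of_notMem ε fun h => hz (((typeSub S U).mul_mem_cancel_left
      (inv_mem (rep_mem q))).1 h), mul_zero]
  have e : ∀ q : TypeQuot S U, cuspVal S U ε (rep q) * cuspVal S U ε ((rep q)⁻¹ * z) =
      typeConst S U ^ 2 * (coefVec ε (permVec S (rep q)) *
        coefVec ε ((permVec S (rep q))⁻¹ * permVec S z)) := fun q => by
    rw [cuspVal_of_mem ε (rep_mem q), cuspVal_of_mem ε (mul_mem (inv_mem (rep_mem q)) hz),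
      permVec_mul (typeSub_le_maxSub S U (inv_mem (rep_mem q))) (typeSub_le_maxSub S U hz),
      permVec_inv (typeSub_le_maxSub S U (rep_mem q))]
    ring
  rw [Finset.sum_congr rfl fun q _ => e q, ← Finset.mul_sum,
    sum_permVec hU fun y => coefVec ε y * coefVec ε (y⁻¹ * permVec S z), sum_coefVec_mul,
    cuspVal_of_mem ε hz]
  have hQ : (Nat.card (TypeQuot S U) : ℂ) ≠ 0 :=
    Nat.cast_ne_zero.2 (Nat.card_pos (α := TypeQuot S U)).ne'
  have h6 : (6 : ℂ) ^ S.places.card = 2 ^ S.places.card * 3 ^ S.places.card := by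
    rw [← mul_pow]; norm_num
  have h2 : (2 : ℂ) ^ S.places.card ≠ 0 := pow_ne_zero _ two_ne_zero
  have h3 : (3 : ℂ) ^ S.places.card ≠ 0 := pow_ne_zero _ three_ne_zero
  rw [typeConst, h6]
  field_simp

/-- The operator as a finite sum. -/
theorem cuspFn_op (hU : IsTypeLevel S U) (ε : Fin 2) (φ : Y U → ℂ)
    (P : NumberField.InfinitePlace F → H3) (x : GLFin F) :
    (cuspFn hU ε).op φ (P, QuotientGroup.mk x) =
      ∑ q : TypeQuot S U, cuspVal S U ε (rep q) * φ (P, QuotientGroup.mk (x * rep q)) := by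
  show ∑ᶠ b, (cuspFn hU ε).kernel (QuotientGroup.mk x) b * φ (P, b) = _
  let e : TypeQuot S U → GLFin F ⧸ U.toSubgroup := fun q => QuotientGroup.mk (x * rep q)
  have he : Function.Injective e := fun a b h => quotIncl_injective (by
    rw [← mk_rep a, ← mk_rep b]
    exact QuotientGroup.eq.2 (by simpa [mul_assoc] using QuotientGroup.eq.1 h))
  rw [finsum_eq_sum_of_support_subset (s := Finset.univ.image e) _ fun b hb => ?_,
    Finset.sum_image fun a _ b _ h => he h]
  · refine Finset.sum_congr rfl fun q _ => ?_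
    simp only [e, HeckeFn.kernel_mk, inv_mul_cancel_left, cuspFn_toFun]
  · revert hb
    refine QuotientGroup.induction_on b fun g hb => ?_
    have hg : x⁻¹ * g ∈ typeSub S U := by
      by_contra h
      refine hb ?_
      show (cuspFn hU ε).kernel (QuotientGroup.mk x) (QuotientGroup.mk g) * _ = 0
      rw [HeckeFn.kernel_mk, cuspFn_toFun, cuspVal_of_notMem ε h, zero_mul]
    refine Finset.mem_coe.2 (Finset.mem_image.2
      ⟨QuotientGroup.mk ⟨x⁻¹ * g, hg⟩, Finset.mem_univ _, ?_⟩)
    have h1 : (QuotientGroup.mk (rep (QuotientGroup.mk (⟨x⁻¹ * g, hg⟩ : typeSub S U) :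
        TypeQuot S U)) : GLFin F ⧸ U.toSubgroup) = QuotientGroup.mk (x⁻¹ * g) := mk_rep _
    have h2 := congrArg (fun c => x • c) h1
    simp only [MulAction.Quotient.smul_mk, smul_eq_mul, mul_inv_cancel_left] at h2
    exact h2

/-- The transformation law under the group of the type. -/
theorem cuspFn_op_mul (hU : IsTypeLevel S U) (ε : Fin 2) (φ : Y U → ℂ)
    (P : NumberField.InfinitePlace F → H3) (x : GLFin F) {g : GLFin F} (hg : g ∈ typeSub S U) :
    (cuspFn hU ε).op φ (P, QuotientGroup.mk (x * g)) =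
      ∑ q : TypeQuot S U, typeConst S U * coefVec ε ((permVec S g)⁻¹ * permVec S (rep q)) *
        φ (P, QuotientGroup.mk (x * rep q)) := by
  rw [cuspFn_op]
  refine Fintype.sum_equiv (MulAction.toPerm (⟨g, hg⟩ : typeSub S U)) _ _ fun q => ?_
  rw [MulAction.toPerm_apply, cuspVal_of_mem ε (rep_mem q), permVec_rep_smul hU,
    inv_mul_cancel_left]
  congr 2
  refine Prod.ext rfl (QuotientGroup.eq.2 ?_)
  rw [show (x * g * rep q)⁻¹ * (x * rep ((⟨g, hg⟩ : typeSub S U) • q)) =
    ((⟨g, hg⟩ : typeSub S U).1 * rep q)⁻¹ * rep ((⟨g, hg⟩ : typeSub S U) • q) by group]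
  exact rep_smul _ q

/-- The operator is idempotent. -/
theorem cuspFn_op_op (hU : IsTypeLevel S U) (ε : Fin 2) (φ : Y U → ℂ) :
    (cuspFn hU ε).op ((cuspFn hU ε).op φ) = (cuspFn hU ε).op φ := by
  funext ⟨P, c⟩
  refine QuotientGroup.induction_on c fun x => ?_
  simp only [cuspFn_op hU ε _ P x, cuspFn_op_mul hU ε φ P x (rep_mem _), Finset.mul_sum]
  rw [Finset.sum_comm]
  refine Finset.sum_congr rfl fun q _ => ?_
  rw [← sum_cuspVal_mul hU ε (rep q), Finset.sum_mul]
  refine Finset.sum_congr rfl fun p _ => ?_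
  rw [cuspVal_of_mem ε (mul_mem (inv_mem (rep_mem p)) (rep_mem q)),
    permVec_mul (typeSub_le_maxSub S U (inv_mem (rep_mem p))) (typeSub_le_maxSub S U (rep_mem q)),
    permVec_inv (typeSub_le_maxSub S U (rep_mem p))]
  ring

/-- Invariance under the kernel of the type. -/
theorem cuspFn_op_mul_of_permVec_one (hU : IsTypeLevel S U) (ε : Fin 2) (φ : Y U → ℂ)
    (P : NumberField.InfinitePlace F → H3) (x : GLFin F) {g : GLFin F} (hg : g ∈ typeSub S U)
    (h1 : permVec S g = 1) :
    (cuspFn hU ε).op φ (P, QuotientGroup.mk (x * g)) =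
      (cuspFn hU ε).op φ (P, QuotientGroup.mk x) := by
  rw [cuspFn_op_mul hU ε φ P x hg, cuspFn_op, h1]
  exact Finset.sum_congr rfl fun q _ => by rw [inv_one, one_mul, cuspVal_of_mem ε (rep_mem q)]

omit [NumberField F] in
theorem coefVec_mul_mulSingle (ε : Fin 2) (v : S.places) (a b : S.places → Equiv.Perm (Fin 3))
    (s : Equiv.Perm (Fin 3)) :
    coefVec ε (a * Pi.mulSingle v s * b) =
      coef ε (a v * s * b v) * ∏ w ∈ Finset.univ.erase v, coef ε (a w * b w) := by
  rw [coefVec, ← Finset.mul_prod_erase _ _ (Finset.mem_univ v)]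
  congr 1
  · simp
  · exact Finset.prod_congr rfl fun w hw => by simp [Finset.ne_of_mem_erase hw]

/-- The eigenline: `diag (-1, 1)` at one of the places acts by `(-1) ^ ε`. -/
theorem cuspFn_op_mul_flip (hU : IsTypeLevel S U) (ε : Fin 2) (φ : Y U → ℂ)
    (P : NumberField.InfinitePlace F → H3) (x : GLFin F) {g : GLFin F} (hg : g ∈ typeSub S U)
    {v : S.places} (h1 : permVec S g = Pi.mulSingle v flipPerm) :
    (cuspFn hU ε).op φ (P, QuotientGroup.mk (x * g)) =
      (-1) ^ (ε : ℕ) * (cuspFn hU ε).op φ (P, QuotientGroup.mk x) := by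
  rw [cuspFn_op_mul hU ε φ P x hg, cuspFn_op, h1, Finset.mul_sum]
  refine Finset.sum_congr rfl fun q _ => ?_
  have e : (flipPerm : Equiv.Perm (Fin 3))⁻¹ = flipPerm := Equiv.swap_inv 1 2
  rw [← Pi.mulSingle_inv, e, cuspVal_of_mem ε (rep_mem q)]
  have := coefVec_mul_mulSingle ε v 1 (permVec S (rep q)) flipPerm
  rw [one_mul, Pi.one_apply, one_mul, coef_flip_mul] at this
  rw [this, coefVec, ← Finset.mul_prod_erase _ _ (Finset.mem_univ v)]
  simp only [Pi.one_apply, one_mul]
  ring

/-- Three translates by an element of order three at one of the places sum to zero. -/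
theorem cuspFn_op_add_add (hU : IsTypeLevel S U) (ε : Fin 2) (φ : Y U → ℂ)
    (P : NumberField.InfinitePlace F → H3) (x : GLFin F) {g : GLFin F} (hg : g ∈ typeSub S U)
    {v : S.places} {r : Equiv.Perm (Fin 3)} (hr : ∀ a, r a ≠ a)
    (h1 : permVec S g = Pi.mulSingle v r) :
    (cuspFn hU ε).op φ (P, QuotientGroup.mk x) + (cuspFn hU ε).op φ (P, QuotientGroup.mk (x * g)) +
      (cuspFn hU ε).op φ (P, QuotientGroup.mk (x * (g * g))) = 0 := by
  have hg' := typeSub_le_maxSub S U hg
  conv_lhs => arg 1; arg 1; rw [← mul_one x]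
  rw [cuspFn_op_mul hU ε φ P x (one_mem _), cuspFn_op_mul hU ε φ P x hg,
    cuspFn_op_mul hU ε φ P x (mul_mem hg hg), permVec_one, permVec_mul hg' hg', h1,
    ← Pi.mulSingle_mul, inv_one, ← Pi.mulSingle_inv, ← Pi.mulSingle_inv,
    ← Finset.sum_add_distrib, ← Finset.sum_add_distrib]
  refine Finset.sum_eq_zero fun q _ => ?_
  have hr' : ∀ a, r⁻¹ a ≠ a := fun a h => hr a (by
    conv_lhs => rw [← h]
    exact Equiv.apply_symm_apply r a)
  have h := coef_add_add_eq_zero ε 1 (permVec S (rep q) v) hr'
  have c0 := coefVec_mul_mulSingle ε v 1 (permVec S (rep q)) 1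
  have c1 := coefVec_mul_mulSingle ε v 1 (permVec S (rep q)) r⁻¹
  have c2 := coefVec_mul_mulSingle ε v 1 (permVec S (rep q)) (r * r)⁻¹
  rw [show (r * r)⁻¹ = r⁻¹ * r⁻¹ from _root_.mul_inv_rev r r] at c2 ⊢
  simp only [one_mul, mul_one, Pi.mulSingle_one, Pi.one_apply] at c0 c1 c2 h
  rw [one_mul, c0, c1, c2]
  linear_combination (typeConst S U * φ (P, QuotientGroup.mk (x * rep q)) *
    ∏ w ∈ Finset.univ.erase v, coef ε (permVec S (rep q) w)) * h

/-- The sum over a line of translates vanishes on functions, on both sides. -/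
theorem cuspVal_add_add (hU : IsTypeLevel S U) (ε : Fin 2) (g h : GLFin F)
    (hg : Reduction.IntGL g) (hh : Reduction.IntGL h) {l : GLFin F} (hl : l ∈ awaySub S)
    {v : S.places} {r : Equiv.Perm (Fin 3)} (hr : ∀ a, r a ≠ a)
    (h1 : permVec S l = Pi.mulSingle v r) :
    cuspVal S U ε (g * h) + cuspVal S U ε (g * l * h) + cuspVal S U ε (g * (l * l) * h) = 0 := by
  have hlT := away_le_typeSub S U hl
  have hconj : ∀ m, m ∈ typeSub S U → (g * m * h ∈ typeSub S U ↔ g * h ∈ typeSub S U) := by
    intro m hm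
    rw [show g * m * h = g * m * g⁻¹ * (g * h) by group]
    exact (typeSub S U).mul_mem_cancel_left (conj_mem_typeSub hU hg hm)
  by_cases hgh : g * h ∈ typeSub S U
  swap
  · rw [cuspVal_of_notMem ε hgh, cuspVal_of_notMem ε (fun h' => hgh ((hconj l hlT).1 h')),
      cuspVal_of_notMem ε (fun h' => hgh ((hconj _ (mul_mem hlT hlT)).1 h'))]
    simp
  have Mg := intSub_le_maxSub (F := F) hg
  have Mh := intSub_le_maxSub (F := F) hh
  have Ml := intSub_le_maxSub (F := F) hl.1
  rw [cuspVal_of_mem ε hgh, cuspVal_of_mem ε ((hconj l hlT).2 hgh),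
    cuspVal_of_mem ε ((hconj _ (mul_mem hlT hlT)).2 hgh), permVec_mul Mg Mh,
    permVec_mul (mul_mem Mg Ml) Mh, permVec_mul Mg Ml,
    permVec_mul (mul_mem Mg (mul_mem Ml Ml)) Mh, permVec_mul Mg (mul_mem Ml Ml),
    permVec_mul Ml Ml, h1, ← Pi.mulSingle_mul]
  have c0 := coefVec_mul_mulSingle ε v (permVec S g) (permVec S h) 1
  simp only [Pi.mulSingle_one, mul_one] at c0
  rw [c0, coefVec_mul_mulSingle, coefVec_mul_mulSingle]
  linear_combination (typeConst S U *
    ∏ w ∈ Finset.univ.erase v, coef ε (permVec S g w * permVec S h w)) *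
      coef_add_add_eq_zero ε (permVec S g v) (permVec S h v) hr

end Fermat.Agent.LT.CuspType

end
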