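import Fermat.Agent.LT.CuspType.Local
import Fermat.Agent.LT.PlaceMatching.Fibre
import Fermat.Agent.LT.Geometric.Fibre

/-!
# The type on `L` and on `K`

At a moved place the local kernels of the type agree under extension of scalars, so the families
of the type on `L` and `K` are compatible in the sense of the matching.
-/

set_option autoImplicit false

noncomputable section

open Matrix IsDedekindDomain
open scoped NumberField Classical

namespace Fermat.Agent.LT.CuspType

open Places PlaceMatching CubicDescent Matching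
open Fermat.Agent.LT.Geometric (IsCubic)

section single

variable {F : Type*} [Field F] [NumberField F] {S : ThreeSet F} {I : Ideal (𝓞 F)}
  (hI : ∃ N : ℕ, 0 < N ∧ (N : 𝓞 F) ∈ I) (hS : ∀ v ∈ S.places, I ≤ v.asIdeal)

include hS in
theorem localGL_mem_typeSub_single (v : S.places)
    {g : GL (Fin 2) ((v : FinPlace F).adicCompletion F)} :
    localGL (v : FinPlace F) g ∈ typeSub (S.single v) (Level.ofIdeal F I hI) ↔
      ∃ (c : ((v : FinPlace F).adicCompletion F)ˣ),
        ∃ k ∈ intGroup (v : FinPlace F), g = scalarUnit c * k := by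
  constructor
  · intro h
    obtain ⟨l, hl, u, hu, e⟩ := (mem_typeSub (isTypeLevel_single hI hS v)).1 h
    obtain ⟨c, k, -, he⟩ := (mem_ofIdeal_iff_forall hI).1 hu (v : FinPlace F)
    refine ⟨c, glPlace (v : FinPlace F) l * coeUnit (intRing (v : FinPlace F)) k,
      mul_mem (intGL_iff.1 hl.1 v) (coeUnit_mem_intGroup k), ?_⟩
    have e' := congrArg (glPlace (v : FinPlace F)) e
    rw [glPlace_localGL_same, map_mul, he] at e'
    rw [e', ← mul_assoc, ← mul_assoc, ← CubicDescent.scalarUnit_comm]
  · rintro ⟨c, k, hk, rfl⟩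
    rw [map_mul]
    exact mul_mem (level_le_typeSub _ _ (localGL_mem_ofIdeal hI (scalarUnit_mem_levelGroup _ _ c)))
      (away_le_typeSub _ _ (localGL_mem_awaySub (S.single v) (singlePt S v) hk))

/-- The local cosets carrying the type. -/
def typeCosets (I : Ideal (𝓞 F)) (v : FinPlace F) : Set (LocCosets I v) :=
  {x | ∃ k ∈ intGroup v, (QuotientGroup.mk k : LocCosets I v) = x}

theorem mk_scalarUnit_mul {v : FinPlace F} (c : (v.adicCompletion F)ˣ)
    (k : GL (Fin 2) (v.adicCompletion F)) :
    (QuotientGroup.mk (scalarUnit c * k) : LocCosets I v) = QuotientGroup.mk k := by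
  refine (QuotientGroup.eq.2 ?_).symm
  rw [CubicDescent.scalarUnit_comm, inv_mul_cancel_left]
  exact scalarUnit_mem_levelGroup _ _ c

include hS in
theorem card_typeQuot_single (v : S.places) :
    Nat.card (TypeQuot (S.single v) (Level.ofIdeal F I hI)) =
      Nat.card (typeCosets I (v : FinPlace F)) := by
  have hS' : ∀ w ∈ (S.single v).places, I ≤ w.asIdeal := fun w hw => by
    rw [Finset.mem_singleton.1 hw]; exact hS _ v.2
  refine Nat.card_eq_of_bijective
    (fun q => ⟨comp (v : FinPlace F) (quotIncl q), ?_⟩) ⟨fun a b h => ?_, fun x => ?_⟩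
  · refine QuotientGroup.induction_on q fun g => ?_
    obtain ⟨c, k, hk, e⟩ := (localGL_mem_typeSub_single hI hS v).1
      (localGL_glPlace_mem_single hI hS v g.2)
    exact ⟨k, hk, by rw [quotIncl_mk, comp_mk, e, mk_scalarUnit_mul]⟩
  · refine quotIncl_injective (coset_ext fun u => ?_)
    rcases eq_or_ne u (v : FinPlace F) with rfl | hu
    · exact congrArg Subtype.val h
    · have key : ∀ q : TypeQuot (S.single v) (Level.ofIdeal F I hI),
          comp u (quotIncl q) = (QuotientGroup.mk 1 : LocCosets I u) := fun q => by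
        refine QuotientGroup.induction_on q fun g => ?_
        rw [quotIncl_mk, comp_mk, QuotientGroup.eq, mul_one]
        exact inv_mem (((mem_typeSub_ofIdeal hI hS').1 g.2).2 u
          fun hm => hu (Finset.mem_singleton.1 hm))
      rw [key, key]
  · obtain ⟨x, k, hk, rfl⟩ := x
    refine ⟨QuotientGroup.mk ⟨localGL (v : FinPlace F) k,
      (localGL_mem_typeSub_single hI hS v).2 ⟨1, k, hk, by rw [map_one, one_mul]⟩⟩, Subtype.ext ?_⟩
    simp only [quotIncl_mk, comp_mk, glPlace_localGL_same]

end single

variable {K L : Type*} [Field K] [NumberField K] [Field L] [NumberField L] {ι : K →+* L}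
  {σ : L ≃+* L} {I : Ideal (𝓞 L)} {J : Ideal (𝓞 K)} {SK : ThreeSet K} {SL : ThreeSet L}

/-- Extension of scalars on `GL₂` of the finite adeles. -/
def glExtend (ι : K →+* L) : GLFin K →* GLFin L :=
  Matrix.GeneralLinearGroup.map (finExtend ι).toRingHom

theorem glPlace_glExtend {v : FinPlace K} {w : FinPlace L} (h : comapPlace ι w = v) (x : GLFin K) :
    glPlace w (glExtend ι x) = baseUnit (placeMap ι h) (glPlace v x) :=
  Units.ext (Matrix.ext fun i j => toPlace_finExtend h (x.val i j))

theorem red_finExtend {v : SK.places} {w : SL.places}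
    (h : comapPlace ι (w : FinPlace L) = v) (x : integralAdele K) :
    red SL w ⟨finExtend ι x.1, finExtend_mem_integralAdele ι x.2⟩ = red SK v x := by
  have hρ : (rho SL w).comp (NumberField.RingOfIntegers.mapRingHom ι) = rho SK v :=
    ringHom_zmod_three_ext fun o => by
      rw [RingHom.comp_apply, rho_eq_zero_iff, rho_eq_zero_iff, ← h]
      exact mem_comapPlace.symm
  show rho SL w (redRep _) = rho SK v (redRep x)
  rw [← hρ, RingHom.comp_apply]
  refine redRep_congr SL w _ _ ?_
  show placeVal _ (finExtend ι x.1 - finIncl L (ι (redRep x : K))) < 1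
  obtain ⟨e, he, hval⟩ := exists_pow_valuation ι (w : FinPlace L)
  rw [← finExtend_finIncl, ← map_sub, placeVal_finExtend he hval, h]
  exact pow_lt_one₀ zero_le (placeVal_sub_redRep SK v x) he

theorem placePerm_glExtend {v : SK.places} {w : SL.places}
    (h : comapPlace ι (w : FinPlace L) = v) {x : GLFin K} (hx : x ∈ maxSub K) :
    placePerm SL w (glExtend ι x) = placePerm SK v x ∧ glExtend ι x ∈ maxSub L := by
  obtain ⟨a, k, hk, rfl⟩ := hx
  have hk' : Reduction.IntGL (glExtend ι k) :=
    ⟨fun i j => finExtend_mem_integralAdele ι (hk.1 i j), fun i j => by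
      rw [← map_inv]; exact finExtend_mem_integralAdele ι (hk.2 i j)⟩
  have ha : glExtend ι (scalarFin K a) =
      scalarFin L (Units.map ((finExtend ι).toRingHom : FinAdele K →* FinAdele L) a) :=
    Units.ext (Matrix.ext fun i j => by
      show finExtend ι ((scalarFin K a).val i j) = _
      by_cases hij : i = j <;> simp [scalarFin, hij])
  rw [map_mul, ha]
  refine ⟨?_, scalar_mul_mem_maxSub _ hk'⟩
  refine (placePerm_scalar_mul SL w _ (⟨_, hk'⟩ : intSub L)).trans
    (Eq.trans ?_ (placePerm_scalar_mul SK v a (⟨k, hk⟩ : intSub K)).symm)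
  congr 1
  exact Units.ext (Matrix.ext fun i j => red_finExtend h ⟨k.val i j, hk.1 i j⟩)

variable (hI : ∃ N : ℕ, 0 < N ∧ (N : 𝓞 L) ∈ I) (hJ : ∃ N : ℕ, 0 < N ∧ (N : 𝓞 K) ∈ J)
  (hSL : ∀ w ∈ SL.places, I ≤ w.asIdeal) (hSK : ∀ v ∈ SK.places, J ≤ v.asIdeal)

theorem baseUnit_scalarUnit {v : FinPlace K} {w : FinPlace L} (h : comapPlace ι w = v)
    (c : (v.adicCompletion K)ˣ) :
    baseUnit (placeMap ι h) (scalarUnit c) =
      scalarUnit (Units.map (placeMap ι h).toMonoidHom c) :=
  Units.ext (Matrix.ext fun i j => by by_cases hij : i = j <;> simp [hij, scalarUnit])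

theorem baseUnit_mem_intGroup {v : FinPlace K} {w : FinPlace L} (h : comapPlace ι w = v)
    {k : GL (Fin 2) (v.adicCompletion K)} (hk : k ∈ intGroup v) :
    baseUnit (placeMap ι h) k ∈ intGroup w :=
  mem_intGroup_of_inv (fun i j => (valued_placeMap_le_one_iff h _).2 (hk.1 i j)) fun i j => by
    rw [← map_inv]
    exact (valued_placeMap_le_one_iff h _).2 ((inv_mem hk).1 i j)

include hSL hSK in
/-- The local functions agree at a moved place. -/
theorem locVal_baseUnit (hm : LevelsMatch ι σ I J) (hc : IsCubic ι σ) (ε : Fin 2) (v : SK.places)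
    (w : SL.places) (h : comapPlace ι (w : FinPlace L) = v)
    (hw : comapPlace (σ : L →+* L) (w : FinPlace L) ≠ w)
    (g : GL (Fin 2) ((v : FinPlace K).adicCompletion K)) :
    locVal hI ε w (baseUnit (placeMap ι h) g) = locVal hJ ε v g := by
  have hiff : localGL (w : FinPlace L) (baseUnit (placeMap ι h) g) ∈
        typeSub (SL.single w) (Level.ofIdeal L I hI) ↔
      localGL (v : FinPlace K) g ∈ typeSub (SK.single v) (Level.ofIdeal K J hJ) := by
    rw [localGL_mem_typeSub_single hI hSL w, localGL_mem_typeSub_single hJ hSK v]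
    constructor
    · rintro ⟨c, k, hk, e⟩
      obtain ⟨c₀, hc₀⟩ := (placeMap_bijective_of_moved hc hw h).2 (c : (w : FinPlace L).adicCompletion L)
      have hne : c₀ ≠ 0 := fun h0 => c.ne_zero (by rw [← hc₀, h0, map_zero])
      refine ⟨Units.mk0 c₀ hne, (scalarUnit (Units.mk0 c₀ hne))⁻¹ * g,
        mem_intGroup_of_map h ?_, (mul_inv_cancel_left _ _).symm⟩
      rw [map_mul, map_inv, baseUnit_scalarUnit, e,
        show Units.map (placeMap ι h).toMonoidHom (Units.mk0 c₀ hne) = c from Units.ext hc₀,
        inv_mul_cancel_left]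
      exact hk
    · rintro ⟨c, k, hk, rfl⟩
      exact ⟨_, _, baseUnit_mem_intGroup h hk, by rw [map_mul, baseUnit_scalarUnit]⟩
  unfold locVal
  by_cases hg : localGL (v : FinPlace K) g ∈ typeSub (SK.single v) (Level.ofIdeal K J hJ)
  swap
  · rw [cuspVal_of_notMem ε hg, cuspVal_of_notMem ε (mt hiff.1 hg)]
  rw [cuspVal_of_mem ε hg, cuspVal_of_mem ε (hiff.2 hg)]
  congr 1
  · have hcard : Nat.card (typeCosets J (v : FinPlace K)) =
        Nat.card (typeCosets I (w : FinPlace L)) := by
      refine Nat.card_eq_of_bijective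
        (fun x => ⟨baseLoc hm h x.1, ?_⟩) ⟨fun a b e => ?_, fun y => ?_⟩
      · obtain ⟨k, hk, hkx⟩ := x.2
        exact ⟨_, baseUnit_mem_intGroup h hk, by rw [← hkx, baseLoc_mk]⟩
      · exact Subtype.ext (baseLoc_injective hm hc h (congrArg Subtype.val e))
      · obtain ⟨y, k, hk, rfl⟩ := y
        obtain ⟨k₀, rfl⟩ : ∃ k₀, baseUnit (placeMap ι h) k₀ = k := by
          let e := RingEquiv.ofBijective (placeMap ι h) (placeMap_bijective_of_moved hc hw h)
          exact ⟨baseUnit e.symm.toRingHom k,
            Units.ext (Matrix.ext fun i j => e.apply_symm_apply _)⟩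
        exact ⟨⟨_, k₀, mem_intGroup_of_map h hk, rfl⟩, rfl⟩
    rw [typeConst, typeConst, card_typeQuot_single hI hSL w, card_typeQuot_single hJ hSK v, ← hcard,
      show (SL.single w).places.card = 1 from Finset.card_singleton _,
      show (SK.single v).places.card = 1 from Finset.card_singleton _]
  · rw [coefVec, coefVec,
      Finset.prod_eq_single (singlePt SL w) (fun u _ hu => absurd (eq_singlePt SL u) hu)
        (fun hh => absurd (Finset.mem_univ _) hh),
      Finset.prod_eq_single (singlePt SK v) (fun u _ hu => absurd (eq_singlePt SK u) hu)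
        (fun hh => absurd (Finset.mem_univ _) hh)]
    refine congrArg (coef ε) ?_
    have hx := typeSub_le_maxSub _ _ hg
    obtain ⟨he, hem⟩ := placePerm_glExtend (SL := SL.single w) (SK := SK.single v)
      (v := singlePt SK v) (w := singlePt SL w) h hx
    refine Eq.trans ?_ he
    have hL := placePerm_localGL (S := SL.single w) (singlePt SL w) (singlePt SL w) rfl hem
    refine Eq.trans ?_ hL
    show placePerm (SL.single w) (singlePt SL w) _ =
      placePerm (SL.single w) (singlePt SL w) (localGL (w : FinPlace L)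
        (glPlace (w : FinPlace L) (glExtend ι (localGL (v : FinPlace K) g))))
    rw [glPlace_glExtend h, glPlace_localGL_same]

include hSL hSK in
/-- **Compatibility of the families of the type.** -/
theorem compatible_cuspFam (hm : LevelsMatch ι σ I J) (hc : IsCubic ι σ) (s : PlaceSection ι)
    (hover : ∀ w, w ∈ SL.places ↔ comapPlace ι w ∈ SK.places) (ε : Fin 2) :
    Compatible hm hc s (fun _ => cuspFam hJ hSK ε) (cuspFam hI hSL ε) := by
  have hnot : ∀ v, ¬ s.Moved σ v → v ∉ SK.places := fun v hv hmem => by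
    refine hm.three (s.sec v) ?_ (not_not.1 hv)
    have h3 : ((3 : ℕ) : 𝓞 K) ∈ v.asIdeal := three_mem SK ⟨v, hmem⟩
    rw [← s.over v, mem_comapPlace, map_natCast] at h3
    simpa using h3
  refine ⟨fun v i hmv a b => ?_, fun v hv => ?_, fun v i hv => ?_⟩
  · refine QuotientGroup.induction_on a fun x => QuotientGroup.induction_on b fun y => ?_
    by_cases hv : v ∈ SK.places
    · have hw : s.pl σ v i ∈ SL.places := (hover _).2 (by rwa [s.pl_over hc v i])
      rw [cuspFam_ker hI hSL ε ⟨_, hw⟩, cuspFam_ker hJ hSK ε ⟨v, hv⟩, baseLoc_mk, baseLoc_mk,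
        cuspKer_mk, cuspKer_mk, ← map_inv, ← map_mul]
      exact locVal_baseUnit hI hJ hSL hSK hm hc ε ⟨v, hv⟩ ⟨_, hw⟩ (s.pl_over hc v i)
        (s.moved_pl hc hmv i) _
    · have hw : s.pl σ v i ∉ SL.places := fun h => hv (by
        have := (hover _).1 h
        rwa [s.pl_over hc v i] at this)
      rw [cuspFam_ker_of_notMem hI hSL ε hw, cuspFam_ker_of_notMem hJ hSK ε hv]
      by_cases hab : (QuotientGroup.mk x : LocCosets J v) = QuotientGroup.mk y
      · rw [hab, LocKer.one_same, LocKer.one_same]
      · rw [LocKer.one_ne hab,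
          LocKer.one_ne fun h => hab (baseLoc_injective hm hc (s.pl_over hc v i) h)]
  · exact cuspFam_ker_of_notMem hI hSL ε fun h => hnot v hv (by
      have := (hover _).1 h
      rwa [s.over v] at this)
  · exact cuspFam_ker_of_notMem hJ hSK ε (hnot v hv)

omit hJ in
/-- The cusp condition along any idempotent containing the places of the type. -/
theorem hasCuspConditionAt_cuspFn {F : Type*} [Field F] [NumberField F] {S : ThreeSet F}
    {U : Level F} (hU : IsTypeLevel S U) (ε : Fin 2) (hS : S.places.Nonempty) {e : FinAdele F}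
    (he : ∀ v ∈ S.places, toPlace v e = 1) :
    Geometric.HasCuspConditionAt (cuspFn hU ε) e := by
  intro x
  obtain ⟨v, hv⟩ := hS
  obtain ⟨z, r, hr, hmem, hperm⟩ := exists_unip_conj (⟨v, hv⟩ : S.places) x
  obtain ⟨hz, hzz⟩ := zero_ne_single_ne hr hperm
  have hez : e * z = z := ext_toPlace fun u => by
    by_cases hu : u ∈ S.places
    · rw [map_mul, he u hu, one_mul]
    · have h1 : glPlace u (unip z : GLFin F) = 1 := by
        have h := hmem.2 u hu
        rwa [map_mul, map_mul, map_inv, mul_eq_one_iff_eq_inv, inv_mul_eq_iff_eq_mul,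
          mul_inv_cancel] at h
      have h2 := congrArg (fun g : GL (Fin 2) _ => g.val 0 1) h1
      simp [glPlace_apply] at h2
      rw [map_mul, h2, mul_zero]
  refine ⟨{0, z, z + z}, Finset.insert_nonempty _ _, fun s hs => ?_, fun c => ?_⟩
  · simp only [Finset.mem_insert, Finset.mem_singleton] at hs
    rcases hs with rfl | rfl | rfl
    · exact mul_zero e
    · exact hez
    · rw [mul_add, hez]
  rw [Finset.sum_insert (by simp [Ne.symm hz, Ne.symm hzz]), Finset.sum_pair (by simpa using hz),
    cuspFn_toFun, ← add_assoc]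
  have := cuspVal_line hU ε hmem hr hperm (x⁻¹ * c)
  convert this using 3
  · rw [unip_zero, mul_one]
  · group
  · rw [← conj_unip_two]; group

end Fermat.Agent.LT.CuspType

end
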