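import Fermat.Agent.LT.CuspType.Basic
import Fermat.Agent.LT.Kernel.Periodic

/-!
# The cusp condition of the type

At a place of the type a conjugate of a unipotent acts by a three cycle, over which the coefficient
averages to zero; so the function of the type satisfies the cusp condition.
-/

set_option autoImplicit false

noncomputable section

open Matrix
open scoped NumberField Classical

namespace Fermat.Agent.LT.CuspType

open Places

variable {F : Type*} [Field F] [NumberField F] {S : ThreeSet F} {U : Level F}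

/-- Every unipotent line meets the group of the type in an element of order three at `v`. -/
theorem exists_unip_conj (v : S.places) (x : GLFin F) :
    ∃ z : FinAdele F, ∃ r : Equiv.Perm (Fin 3), (∀ a, r a ≠ a) ∧
      x⁻¹ * unip z * x ∈ awaySub S ∧ permVec S (x⁻¹ * unip z * x) = Pi.mulSingle v r := by
  set c : Fin 2 → (v : FinPlace F).adicCompletion F := fun i => (glPlace (v : FinPlace F) x⁻¹).val i 0
  set d : Fin 2 → (v : FinPlace F).adicCompletion F := fun j => (glPlace (v : FinPlace F) x).val 1 j
  obtain ⟨i₀, hi₀⟩ := Finite.exists_max fun i => Valued.v (c i)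
  obtain ⟨j₀, hj₀⟩ := Finite.exists_max fun j => Valued.v (d j)
  have hdet : ∀ g : GLFin F, (glPlace (v : FinPlace F) g).val.det ≠ 0 := fun g =>
    ((Matrix.isUnit_iff_isUnit_det _).mp (glPlace (v : FinPlace F) g).isUnit).ne_zero
  have hc : c i₀ ≠ 0 := fun h0 => hdet x⁻¹ (by
    have h : ∀ i, c i = 0 := fun i => (Valuation.zero_iff _).1
      (le_antisymm ((hi₀ i).trans_eq (by rw [h0, map_zero])) zero_le)
    rw [Matrix.det_fin_two, show (glPlace (v : FinPlace F) x⁻¹).val 0 0 = 0 from h 0,
      show (glPlace (v : FinPlace F) x⁻¹).val 1 0 = 0 from h 1]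
    ring)
  have hd : d j₀ ≠ 0 := fun h0 => hdet x (by
    have h : ∀ j, d j = 0 := fun j => (Valuation.zero_iff _).1
      (le_antisymm ((hj₀ j).trans_eq (by rw [h0, map_zero])) zero_le)
    rw [Matrix.det_fin_two, show (glPlace (v : FinPlace F) x).val 1 0 = 0 from h 0,
      show (glPlace (v : FinPlace F) x).val 1 1 = 0 from h 1]
    ring)
  set a := (c i₀ * d j₀)⁻¹ with ha
  set z : FinAdele F := single (v : FinPlace F) a with hz
  set l := x⁻¹ * unip z * x with hl
  set A : FinAdele F → Fin 2 → Fin 2 → FinAdele F := fun u i j =>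
    u * ((x⁻¹).val i 0 * x.val 1 j) with hA
  have hval : ∀ u i j, (x⁻¹ * unip u * x).val i j =
      (1 : Matrix (Fin 2) (Fin 2) (FinAdele F)) i j + A u i j := fun u i j =>
    Kernel.conj_unip_val x u i j
  have hAv : ∀ i j, toPlace (v : FinPlace F) (A z i j) = a * (c i * d j) := fun i j => by
    simp only [hA, hz, map_mul, toPlace_single_same]; rfl
  have hAne : ∀ u, (u = z ∨ u = -z) → ∀ w : FinPlace F, w ≠ v → ∀ i j,
      toPlace w (A u i j) = 0 := by
    intro u hu w hw i j
    rcases hu with rfl | rfl <;> simp [hA, hz, toPlace_single_ne hw]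
  have hAint : ∀ u, (u = z ∨ u = -z) → ∀ i j, A u i j ∈ integralAdele F := by
    intro u hu i j
    refine mem_integralAdele_iff.2 fun w => ?_
    rcases eq_or_ne w (v : FinPlace F) with rfl | hw
    · have hle : Valued.v (a * (c i * d j)) ≤ 1 := by
        rw [ha, map_mul, map_inv₀, map_mul, map_mul,
          inv_mul_le_one₀ (zero_lt_iff.2 (mul_ne_zero ((Valuation.ne_zero_iff _).2 hc)
            ((Valuation.ne_zero_iff _).2 hd)))]
        exact mul_le_mul' (hi₀ i) (hj₀ j)
      have e : placeVal (v : FinPlace F) (A z i j) ≤ 1 := by rw [placeVal, hAv]; exact hle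
      rcases hu with rfl | rfl
      · exact e
      · rw [show A (-z) i j = -A z i j from by simp only [hA]; ring, placeVal, map_neg, Valuation.map_neg]
        exact e
    · rw [placeVal, hAne u hu w hw, map_zero]; exact zero_le
  have hinv : l⁻¹ = x⁻¹ * unip (-z) * x := by
    rw [hl, _root_.mul_inv_rev, _root_.mul_inv_rev, inv_inv, ← AddChar.map_neg_eq_inv, ← mul_assoc]
  have hmem : l ∈ awaySub S := by
    refine ⟨⟨fun i j => ?_, fun i j => ?_⟩, fun w hw => Units.ext (Matrix.ext fun i j => ?_)⟩
    · rw [hl, hval]; exact add_mem (Reduction.IntGL.one.1 i j) (hAint _ (Or.inl rfl) i j)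
    · rw [hinv, hval]; exact add_mem (Reduction.IntGL.one.1 i j) (hAint _ (Or.inr rfl) i j)
    · rw [glPlace_apply, hl, hval, map_add, hAne _ (Or.inl rfl) w fun h => hw (h ▸ v.2)]
      by_cases hij : i = j <;> simp [hij, Matrix.one_apply]
  refine ⟨z, placePerm S v l, ?_, hmem, permVec_of_local v (k := ⟨l, hmem.1⟩) fun w hw => ?_⟩
  · refine exists_rot_of_nilpotent v (l := ⟨l, hmem.1⟩) (fun i j => ?_) ⟨i₀, j₀, ?_⟩
    · have h0 : x.val 1 0 * (x⁻¹).val 0 0 + x.val 1 1 * (x⁻¹).val 1 0 = 0 := by
        have h := congrFun (congrFun (Units.mul_inv x) 1) 0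
        simpa [Matrix.mul_apply, Fin.sum_univ_two] using h
      rw [← map_zero (toPlace (v : FinPlace F))]
      congr 1
      simp only [Matrix.mul_apply, Fin.sum_univ_two, Matrix.sub_apply, hl, hval,
        add_sub_cancel_left, hA]
      linear_combination z * z * (x⁻¹).val i 0 * x.val 1 j * h0
    · show placeVal _ (l.val i₀ j₀ - _) = 1
      rw [hl, hval, add_sub_cancel_left, placeVal, hAv, ha,
        inv_mul_cancel₀ (mul_ne_zero hc hd), map_one]
  · refine Units.ext (Matrix.ext fun i j => ?_)
    rw [glPlace_apply]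
    show toPlace _ (l.val i j) = _
    rw [hl, hval, map_add, hAne _ (Or.inl rfl) w fun h => hw (Subtype.ext h)]
    by_cases hij : i = j <;> simp [hij, Matrix.one_apply]

omit [NumberField F] in
/-- The unipotent of `0` is `1`. -/
theorem unip_zero : (unip (0 : FinAdele F) : GLFin F) = 1 := AddChar.map_zero_eq_one _

/-- If `l` acts by a three cycle at one place, the values at `y`, `l * y`, `l * l * y` sum to zero.
-/
theorem cuspVal_line (hU : IsTypeLevel S U) (ε : Fin 2) {l : GLFin F} (hl : l ∈ awaySub S)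
    {v : S.places} {r : Equiv.Perm (Fin 3)} (hr : ∀ a, r a ≠ a)
    (h1 : permVec S l = Pi.mulSingle v r) (y : GLFin F) :
    cuspVal S U ε y + cuspVal S U ε (l * y) + cuspVal S U ε (l * l * y) = 0 := by
  have hlT := away_le_typeSub S U hl
  by_cases hy : y ∈ typeSub S U
  · obtain ⟨m, hm, u, hu, rfl⟩ := (mem_typeSub hU).1 hy
    have := cuspVal_add_add hU ε 1 m Reduction.IntGL.one hm.1 hl hr h1
    simpa only [one_mul, ← mul_assoc, cuspVal_mul_right hU ε hu] using this
  · rw [cuspVal_of_notMem ε hy,
      cuspVal_of_notMem ε fun h => hy (((typeSub S U).mul_mem_cancel_left hlT).1 h),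
      cuspVal_of_notMem ε fun h => hy (((typeSub S U).mul_mem_cancel_left (mul_mem hlT hlT)).1 h)]
    simp

omit [NumberField F] in
/-- Conjugating the unipotent of `z + z` squares the conjugate of that of `z`. -/
theorem conj_unip_two (x : GLFin F) (z : FinAdele F) :
    x⁻¹ * unip (z + z) * x = (x⁻¹ * unip z * x) * (x⁻¹ * unip z * x) := by
  rw [Kernel.unip_add]; group

/-- If the conjugate unipotent of `z` acts by a three cycle, `z` and `z + z` are nonzero. -/
theorem zero_ne_single_ne {v : S.places} {x : GLFin F} {z : FinAdele F}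
    {r : Equiv.Perm (Fin 3)} (hr : ∀ a, r a ≠ a)
    (h : permVec S (x⁻¹ * unip z * x) = Pi.mulSingle v r) :
    z ≠ 0 ∧ z + z ≠ 0 := by
  have h1 : permVec S (x⁻¹ * unip (0 : FinAdele F) * x) = 1 := by
    rw [unip_zero, mul_one, inv_mul_cancel, permVec_one]
  have hz : z ≠ 0 := by
    rintro rfl
    rw [h1] at h
    exact hr 0 (by simpa using (congrFun (congrArg DFunLike.coe (congrFun h v)) 0).symm)
  refine ⟨hz, fun h2 => hz ?_⟩
  have h2' : ((2 : ℕ) : FinAdele F) * z = 0 := by push_cast; linear_combination h2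
  exact (isUnit_natCast 2 two_pos).mul_right_eq_zero.1 h2'

/-- The cusp condition, as used by the kernels. -/
theorem hasCuspCondition (hU : IsTypeLevel S U) (ε : Fin 2) (hS : S.places.Nonempty) :
    Kernel.HasCuspCondition (cuspFn hU ε) := by
  intro x
  obtain ⟨v, hv⟩ := hS
  obtain ⟨z, r, hr, hmem, hperm⟩ := exists_unip_conj (⟨v, hv⟩ : S.places) x
  obtain ⟨hz, hzz⟩ := zero_ne_single_ne hr hperm
  refine ⟨{0, z, z + z}, Finset.insert_nonempty _ _, fun c => ?_⟩
  rw [Finset.sum_insert (by simp [Ne.symm hz, Ne.symm hzz]), Finset.sum_pair (by simpa using hz),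
    cuspFn_toFun, ← add_assoc]
  have := cuspVal_line hU ε hmem hr hperm (x⁻¹ * c)
  convert this using 3
  · rw [unip_zero, mul_one]
  · group
  · rw [← conj_unip_two]; group

end Fermat.Agent.LT.CuspType

end
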