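import Fermat.Agent.LT.CuspType.Cusp
import Fermat.Agent.LT.Rigidity.Three

/-!
# Fixed by `e'` and the local conditions at the places above three

`e'`-fixed functions satisfy `Rigidity.IsThreeFixed`; conversely, invariance under the kernel of
the type together with these conditions at every place of the type gives fixedness.
-/

set_option autoImplicit false

noncomputable section

open Matrix
open scoped NumberField Classical

namespace Fermat.Agent.LT.CuspType

open Places

variable {F : Type*} [Field F] [NumberField F] {S : ThreeSet F} {U : Level F}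

theorem red_eq_of_sub_lt (v : S.places) {x y : integralAdele F}
    (h : placeVal (v : FinPlace F) ((x : FinAdele F) - y) < 1) : red S v x = red S v y := by
  rw [← sub_eq_zero, ← map_sub, red_eq_zero_iff]
  exact h

theorem placeVal_of_support (v : FinPlace F) {e : FinAdele F} (hw : placeVal v e ≤ 1)
    (hoff : ∀ u, u ≠ v → placeVal u e ≤ 1) : e ∈ integralAdele F :=
  mem_integralAdele_iff.2 fun u => by
    rcases eq_or_ne u v with rfl | hu
    exacts [hw, hoff u hu]

/-- `diag (e, 1)` for an idele congruent to `±1` at `v` and trivial elsewhere. -/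
theorem dia_mem_awaySub (v : S.places) (e : (FinAdele F)ˣ)
    (hw : placeVal (v : FinPlace F) (e : FinAdele F) = 1)
    (hoff : ∀ u : FinPlace F, u ≠ v → toPlace u (e : FinAdele F) = 1) :
    (dia e : GLFin F) ∈ awaySub S ∧
      ∀ u : FinPlace F, u ≠ v → glPlace u (dia e : GLFin F) = 1 := by
  have h1 : (e : FinAdele F) ∈ integralAdele F :=
    placeVal_of_support (e := (e : FinAdele F)) (v : FinPlace F) hw.le fun u hu => by simp [placeVal, hoff u hu]
  have h2 : ((e⁻¹ : (FinAdele F)ˣ) : FinAdele F) ∈ integralAdele F :=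
    placeVal_of_support (e := ((e⁻¹ : (FinAdele F)ˣ) : FinAdele F)) (v : FinPlace F) (by rw [placeVal_units_inv, hw, inv_one])
      fun u hu => by simp [placeVal, hoff u hu]
  have hother : ∀ u : FinPlace F, u ≠ v → glPlace u (dia e : GLFin F) = 1 := fun u hu =>
    Units.ext (Matrix.ext fun i j => by
      rw [glPlace_apply]
      fin_cases i <;> fin_cases j <;> simp [dia, hoff u hu])
  refine ⟨⟨⟨fun i j => ?_, fun i j => ?_⟩, fun u hu => hother u fun h => hu (h ▸ v.2)⟩, hother⟩
  · fin_cases i <;> fin_cases j <;> simp [dia, h1, zero_mem, one_mem]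
  · fin_cases i <;> fin_cases j <;> simp [dia, h2, zero_mem, one_mem]

theorem placeVal_eq_one_of_sub_lt {v : FinPlace F} {x : FinAdele F} {c : FinAdele F}
    (hc : placeVal v c = 1) (h : placeVal v (x - c) < 1) : placeVal v x = 1 := by
  unfold placeVal at hc h ⊢
  rw [map_sub] at h
  exact (Valuation.map_eq_of_sub_lt (v := Valued.v) (h.trans_le hc.ge)).trans hc

theorem permVec_dia_near (v : S.places) (e : (FinAdele F)ˣ)
    (he : placeVal (v : FinPlace F) ((e : FinAdele F) - 1) < 1)
    (hoff : ∀ u : FinPlace F, u ≠ v → toPlace u (e : FinAdele F) = 1) :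
    (dia e : GLFin F) ∈ awaySub S ∧ permVec S (dia e) = 1 := by
  obtain ⟨hmem, hother⟩ := dia_mem_awaySub v e (placeVal_eq_one_of_sub_lt (placeVal_one _) he) hoff
  refine ⟨hmem, ?_⟩
  rw [permVec_of_local v (k := ⟨_, hmem.1⟩) fun u hu => hother u fun h => hu (Subtype.ext h),
    placePerm_int S v ⟨_, hmem.1⟩]
  rw [permThree_scalar (c := 1), Pi.mulSingle_one]
  refine Matrix.ext fun i j => ?_
  rw [redGL_apply, one_smul]
  fin_cases i <;> fin_cases j
  · exact (red_eq_of_sub_lt v (y := 1) (by simpa [dia] using he)).trans (map_one _)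
  · exact (red_congr S v (y := 0) (by simp [dia])).trans (map_zero _)
  · exact (red_congr S v (y := 0) (by simp [dia])).trans (map_zero _)
  · exact (red_congr S v (y := 1) (by simp [dia])).trans (map_one _)

theorem permVec_dia_flip (v : S.places) (e : (FinAdele F)ˣ)
    (he : placeVal (v : FinPlace F) ((e : FinAdele F) + 1) < 1)
    (hoff : ∀ u : FinPlace F, u ≠ v → toPlace u (e : FinAdele F) = 1) :
    (dia e : GLFin F) ∈ awaySub S ∧ permVec S (dia e) = Pi.mulSingle v flipPerm := by
  have he' : placeVal (v : FinPlace F) ((e : FinAdele F) - (-1)) < 1 := by rwa [sub_neg_eq_add]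
  obtain ⟨hmem, hother⟩ := dia_mem_awaySub v e
    (placeVal_eq_one_of_sub_lt (by simp [placeVal]) he') hoff
  refine ⟨hmem, ?_⟩
  rw [permVec_of_local v (k := ⟨_, hmem.1⟩) fun u hu => hother u fun h => hu (Subtype.ext h),
    placePerm_int S v ⟨_, hmem.1⟩]
  rw [permThree_diag (Matrix.ext fun i j => ?_)]
  rw [redGL_apply]
  fin_cases i <;> fin_cases j
  · exact (red_eq_of_sub_lt v (y := -1) (by simpa [dia] using he)).trans
      (by simp only [map_neg, map_one]; rfl)
  · exact (red_congr S v (y := 0) (by simp [dia])).trans (map_zero _)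
  · exact (red_congr S v (y := 0) (by simp [dia])).trans (map_zero _)
  · exact (red_congr S v (y := 1) (by simp [dia])).trans (map_one _)

theorem permVec_unip_small (v : S.places) (x : FinAdele F)
    (hx : placeVal (v : FinPlace F) x < 1) (hoff : ∀ u : FinPlace F, u ≠ v → toPlace u x = 0) :
    (unip x : GLFin F) ∈ awaySub S ∧ permVec S (unip x) = 1 := by
  have hother : ∀ u : FinPlace F, u ≠ v → glPlace u (unip x : GLFin F) = 1 := fun u hu => by
    rw [glPlace_unip, hoff u hu]
    exact AddChar.map_zero_eq_one _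
  have hint : x ∈ integralAdele F :=
    placeVal_of_support (e := x) (v : FinPlace F) hx.le fun u hu => by simp [placeVal, hoff u hu]
  have hmem : (unip x : GLFin F) ∈ awaySub S := by
    refine ⟨intGL_iff.2 fun u => ?_, fun u hu => hother u fun h => hu (h ▸ v.2)⟩
    rw [glPlace_unip]
    exact unip_mem (placeVal_le_one u hint)
  refine ⟨hmem, ?_⟩
  rw [permVec_of_local v (k := ⟨_, hmem.1⟩) fun u hu => hother u fun h => hu (Subtype.ext h),
    placePerm_int S v ⟨_, hmem.1⟩]
  rw [permThree_scalar (c := 1), Pi.mulSingle_one]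
  refine Matrix.ext fun i j => ?_
  rw [redGL_apply, one_smul]
  fin_cases i <;> fin_cases j
  · exact (red_congr S v (y := 1) (by simp)).trans (map_one _)
  · exact (red_eq_of_sub_lt v (y := 0) (by simpa using hx)).trans (map_zero _)
  · exact (red_congr S v (y := 0) (by simp)).trans (map_zero _)
  · exact (red_congr S v (y := 1) (by simp)).trans (map_one _)

/-- Every function in the image of `e'` satisfies the conditions at each place. -/
theorem isThreeFixed_op (hU : IsTypeLevel S U) (ε : Fin 2) (v : S.places) (φ : Y U → ℂ) :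
    Rigidity.IsThreeFixed U (v : FinPlace F) ((-1) ^ (ε : ℕ)) ((cuspFn hU ε).op φ) where
  near P g e he hoff := by
    obtain ⟨h1, h2⟩ := permVec_dia_near v e he hoff
    exact cuspFn_op_mul_of_permVec_one hU ε φ P g (away_le_typeSub S U h1) h2
  flip P g e he hoff := by
    obtain ⟨h1, h2⟩ := permVec_dia_flip v e he hoff
    exact cuspFn_op_mul_flip hU ε φ P g (away_le_typeSub S U h1) h2
  unip P g x hx hoff := by
    obtain ⟨h1, h2⟩ := permVec_unip_small v x hx hoff
    exact cuspFn_op_mul_of_permVec_one hU ε φ P g (away_le_typeSub S U h1) h2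
  cusp P g := by
    obtain ⟨r, hr, hperm⟩ := permVec_unipAt (S := S) v
    have h := cuspFn_op_add_add hU ε φ P (g * (unipAt v)⁻¹)
      (away_le_typeSub S U (unipAt_mem v)) hr hperm
    rw [inv_mul_cancel_right, ← mul_assoc (g * (unipAt v)⁻¹), inv_mul_cancel_right] at h
    rw [Fin.sum_univ_three]
    have e : (unipAt v)⁻¹ = unip (-idem (v : FinPlace F)) :=
      (AddChar.map_neg_eq_inv _ _).symm
    simp only [Rigidity.threeLift, Matrix.cons_val_zero, Matrix.cons_val_one, Matrix.cons_val_two,
      Matrix.tail_cons, Matrix.head_cons]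
    rw [unip_zero, mul_one, ← e]
    refine (?_ : _ = _).trans h
    rw [show (unip (idem (v : FinPlace F)) : GLFin F) = unipAt v from rfl]
    ring

/-- `e'`-fixed functions satisfy the conditions at each place. -/
theorem isThreeFixed_of_fixed (hU : IsTypeLevel S U) (ε : Fin 2) {w : FinPlace F}
    (hw : w ∈ S.places) {φ : Y U → ℂ} (h : (cuspFn hU ε).op φ = φ) :
    Rigidity.IsThreeFixed U w ((-1) ^ (ε : ℕ)) φ := by
  rw [← h]
  exact isThreeFixed_op hU ε ⟨w, hw⟩ φ

theorem coef_rot (ε : Fin 2) {r : Equiv.Perm (Fin 3)} (hr : ∀ a, r a ≠ a) :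
    coef ε r = -(1 / 2) ∧ coef ε (r * r) = -(1 / 2) := by
  have h := coef_add_add_eq_zero ε 1 1 hr
  simp only [one_mul, mul_one, coef_one] at h
  have h3 : ∀ r : Equiv.Perm (Fin 3), (∀ a, r a ≠ a) → r * r = r⁻¹ := by decide +kernel
  have e : coef ε (r * r) = coef ε r := by rw [h3 r hr, coef_inv]
  rw [e] at h
  refine ⟨?_, e.trans ?_⟩ <;> linear_combination (1 / 2 : ℂ) * h

/-- One coordinate. -/
theorem sum_coef_mul_of_laws (ε : Fin 2) {r : Equiv.Perm (Fin 3)} (hr : ∀ a, r a ≠ a)
    (h : Equiv.Perm (Fin 3) → ℂ) (hflip : ∀ σ, h (σ * flipPerm) = (-1) ^ (ε : ℕ) * h σ)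
    (hsum : h 1 + h r + h (r * r) = 0) :
    ∑ σ, coef ε σ * h σ = 3 * h 1 := by
  have hb : Function.Bijective
      (fun p : Fin 3 × Fin 2 => r ^ (p.1 : ℕ) * flipPerm ^ (p.2 : ℕ)) := by
    rw [Fintype.bijective_iff_surjective_and_card]
    refine ⟨fun σ => ?_, by decide⟩
    obtain ⟨i, j, hij⟩ := exists_pow_mul_flip_pow hr σ
    exact ⟨(i, j), hij.symm⟩
  rw [← Fintype.sum_bijective _ hb (fun p => coef ε (r ^ (p.1 : ℕ) * flipPerm ^ (p.2 : ℕ)) *
    h (r ^ (p.1 : ℕ) * flipPerm ^ (p.2 : ℕ))) _ fun _ => rfl,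
    Fintype.sum_prod_type, Fin.sum_univ_three]
  simp only [Fin.sum_univ_two, Fin.val_zero, Fin.val_one, Fin.val_two, pow_zero, pow_one, pow_two,
    mul_one, hflip, coef_mul_flip, coef_one]
  obtain ⟨c1, c2⟩ := coef_rot ε hr
  rw [c1, c2]
  have hs : ((-1 : ℂ) ^ (ε : ℕ)) * (-1) ^ (ε : ℕ) = 1 := by rw [← mul_pow]; norm_num
  linear_combination (h 1 - 1 / 2 * h r - 1 / 2 * h (r * r)) * hs - hsum

end Fermat.Agent.LT.CuspType

end
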