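import Fermat.Agent.LT.CuspType.Basic
import Fermat.Agent.LT.Places.Galois
import Fermat.Agent.LT.Galois

/-!
# The type under a field automorphism permuting the places

If `σ` preserves the level and the set of places of the type, then the function of the type is
invariant under `σ`, and its operator commutes with the action of `σ`.
-/

set_option autoImplicit false

noncomputable section

open Matrix
open scoped NumberField Classical

namespace Fermat.Agent.LT.CuspType

open Places

variable {F : Type*} [Field F] [NumberField F] {S : ThreeSet F} {U : Level F}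

omit [NumberField F] in
theorem finMap_symm_apply (σ : F ≃+* F) (x : FinAdele F) :
    finMap (σ.symm : F →+* F) (finMap (σ : F →+* F) x) = x := by
  induction x using TensorProduct.induction_on with
  | zero => simp
  | tmul a z => simp
  | add a b ha hb => simp [ha, hb]

omit [NumberField F] in
/-- `σ.symm` undoes `σ` on `GL₂(A_f)`. -/
theorem glFinMap_symm_apply (σ : F ≃+* F) (g : GLFin F) :
    glFinMap (σ.symm : F →+* F) (glFinMap (σ : F →+* F) g) = g :=
  Units.ext (Matrix.ext fun i j => finMap_symm_apply σ (g.val i j))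

omit [NumberField F] in
theorem glFinMap_scalarFin (σ : F →+* F) (a : (FinAdele F)ˣ) :
    glFinMap σ (scalarFin F a) = scalarFin F (Units.map (finMap σ : FinAdele F →* FinAdele F) a) :=
  Units.ext (Matrix.ext fun i j => by
    show finMap σ ((scalarFin F a).val i j) = _
    by_cases h : i = j <;> simp [scalarFin, h])

theorem intGL_glFinMap (σ : F →+* F) {k : GLFin F} (hk : Reduction.IntGL k) :
    Reduction.IntGL (glFinMap σ k) :=
  ⟨fun i j => finExtend_mem_integralAdele σ (hk.1 i j), fun i j => by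
    rw [← map_inv]
    exact finExtend_mem_integralAdele σ (hk.2 i j)⟩

theorem toPlace_finMap_eq_zero (σ : F ≃+* F) (w : FinPlace F) {x : FinAdele F}
    (h : toPlace (comapPlace (σ : F →+* F) w) x = 0) :
    toPlace w (finMap (σ : F →+* F) x) = 0 := by
  have := placeVal_finMap σ w x
  rw [placeVal, placeVal, h, map_zero, Valuation.zero_iff] at this
  exact this

theorem comapPlace_symm_iff (σ : F ≃+* F)
    (hS : ∀ v, comapPlace (σ : F →+* F) v ∈ S.places ↔ v ∈ S.places) (v : FinPlace F) :
    comapPlace (σ.symm : F →+* F) v ∈ S.places ↔ v ∈ S.places := by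
  rw [← hS, comapPlace_comapPlace_symm]

theorem glFinMap_mem_awaySub (σ : F ≃+* F)
    (hS : ∀ v, comapPlace (σ : F →+* F) v ∈ S.places ↔ v ∈ S.places) {l : GLFin F}
    (hl : l ∈ awaySub S) : glFinMap (σ : F →+* F) l ∈ awaySub S := by
  refine ⟨intGL_glFinMap _ hl.1, fun w hw => Units.ext (Matrix.ext fun i j => ?_)⟩
  have hw' : comapPlace (σ : F →+* F) w ∉ S.places := fun h => hw ((hS w).1 h)
  have h0 : toPlace (comapPlace (σ : F →+* F) w)
      (l.val i j - (1 : Matrix (Fin 2) (Fin 2) (FinAdele F)) i j) = 0 := by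
    have h := congrArg (fun g : GL (Fin 2) _ => g.val i j) (hl.2 _ hw')
    simp only [glPlace_apply] at h
    rw [map_sub, h]
    by_cases hij : i = j <;> simp [hij, Matrix.one_apply]
  have h1 := toPlace_finMap_eq_zero σ w h0
  rw [map_sub, map_sub, sub_eq_zero] at h1
  rw [glPlace_apply]
  refine h1.trans ?_
  by_cases hij : i = j <;> simp [hij, Matrix.one_apply]

theorem glFinMap_mem_typeSub (σ : F ≃+* F)
    (hS : ∀ v, comapPlace (σ : F →+* F) v ∈ S.places ↔ v ∈ S.places)
    (hσ : ∀ g ∈ U.toSubgroup, glFinMap (σ : F →+* F) g ∈ U.toSubgroup) {g : GLFin F}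
    (hg : g ∈ typeSub S U) : glFinMap (σ : F →+* F) g ∈ typeSub S U := by
  have : typeSub S U ≤ (typeSub S U).comap (glFinMap (σ : F →+* F)) :=
    sup_le (fun l hl => away_le_typeSub S U (glFinMap_mem_awaySub σ hS hl))
      fun u hu => level_le_typeSub S U (hσ u hu)
  exact this hg

omit [NumberField F] in
/-- A ring map `𝓞 F → ZMod 3` is determined by its kernel. -/
theorem ringHom_zmod_three_ext {f g : 𝓞 F →+* ZMod 3} (h : ∀ o, f o = 0 ↔ g o = 0) : f = g := by
  refine RingHom.ext fun o => ?_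
  have h1 : g (o - ((g o).val : 𝓞 F)) = 0 := by
    rw [map_sub, map_natCast, ZMod.natCast_zmod_val, sub_self]
  have h2 := (h _).2 h1
  rwa [map_sub, map_natCast, ZMod.natCast_zmod_val, sub_eq_zero] at h2

/-- The permutation of the places of the type. -/
def placesPerm (σ : F ≃+* F)
    (hS : ∀ v, comapPlace (σ : F →+* F) v ∈ S.places ↔ v ∈ S.places) : S.places ≃ S.places :=
  (placeEquiv σ).subtypeEquiv fun v => (hS v).symm

theorem red_finMap (σ : F ≃+* F)
    (hS : ∀ v, comapPlace (σ : F →+* F) v ∈ S.places ↔ v ∈ S.places) (v : S.places)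
    (x : integralAdele F) :
    red S v ⟨finMap (σ : F →+* F) x.1, finExtend_mem_integralAdele _ x.2⟩ =
      red S (placesPerm σ hS v) x := by
  have hρ : (rho S v).comp (NumberField.RingOfIntegers.mapRingHom (σ : F →+* F)) =
      rho S (placesPerm σ hS v) :=
    ringHom_zmod_three_ext fun o => by
      rw [RingHom.comp_apply, rho_eq_zero_iff, rho_eq_zero_iff]
      exact mem_comapPlace.symm
  show rho S v (redRep _) = rho S (placesPerm σ hS v) (redRep x)
  rw [← hρ, RingHom.comp_apply]
  refine redRep_congr S v _ _ ?_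
  show placeVal _ (finMap (σ : F →+* F) x.1 -
    finIncl F ((σ : F →+* F) (redRep x : F))) < 1
  rw [← finMap_finIncl, ← map_sub, placeVal_finMap]
  exact placeVal_sub_redRep S (placesPerm σ hS v) x

theorem placePerm_glFinMap (σ : F ≃+* F)
    (hS : ∀ v, comapPlace (σ : F →+* F) v ∈ S.places ↔ v ∈ S.places) (v : S.places) {g : GLFin F}
    (hg : g ∈ maxSub F) :
    placePerm S v (glFinMap (σ : F →+* F) g) = placePerm S (placesPerm σ hS v) g := by
  obtain ⟨a, k, hk, rfl⟩ := hg
  rw [map_mul, glFinMap_scalarFin]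
  refine (placePerm_scalar_mul S v _ (⟨_, intGL_glFinMap _ hk⟩ : intSub F)).trans
    (Eq.trans ?_ (placePerm_scalar_mul S _ a (⟨k, hk⟩ : intSub F)).symm)
  congr 1
  exact Units.ext (Matrix.ext fun i j => red_finMap σ hS v ⟨k.val i j, hk.1 i j⟩)

/-- `e'` is invariant under an automorphism permuting the places. -/
theorem cuspVal_glFinMap (σ : F ≃+* F)
    (hS : ∀ v, comapPlace (σ : F →+* F) v ∈ S.places ↔ v ∈ S.places)
    (hσ : ∀ g ∈ U.toSubgroup, glFinMap (σ : F →+* F) g ∈ U.toSubgroup)
    (hσ' : ∀ g ∈ U.toSubgroup, glFinMap (σ.symm : F →+* F) g ∈ U.toSubgroup)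
    (ε : Fin 2) (g : GLFin F) :
    cuspVal S U ε (glFinMap (σ : F →+* F) g) = cuspVal S U ε g := by
  by_cases hg : g ∈ typeSub S U
  · rw [cuspVal_of_mem ε hg, cuspVal_of_mem ε (glFinMap_mem_typeSub σ hS hσ hg)]
    congr 1
    refine Fintype.prod_equiv (placesPerm σ hS) _ _ fun v => ?_
    exact congrArg (coef ε) (placePerm_glFinMap σ hS v (typeSub_le_maxSub S U hg))
  · rw [cuspVal_of_notMem ε hg, cuspVal_of_notMem ε fun h => hg ?_]
    have := glFinMap_mem_typeSub σ.symm (comapPlace_symm_iff σ hS) hσ' h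
    rwa [glFinMap_symm_apply] at this

/-- The function of the type is invariant under the automorphism. -/
theorem cuspFn_glFinMap (hU : IsTypeLevel S U) (σ : F ≃+* F)
    (hS : ∀ v, comapPlace (σ : F →+* F) v ∈ S.places ↔ v ∈ S.places)
    (hσ : ∀ g ∈ U.toSubgroup, glFinMap (σ : F →+* F) g ∈ U.toSubgroup)
    (hσ' : ∀ g ∈ U.toSubgroup, glFinMap (σ.symm : F →+* F) g ∈ U.toSubgroup)
    (ε : Fin 2) (g : GLFin F) :
    (cuspFn hU ε).toFun (glFinMap (σ : F →+* F) g) = (cuspFn hU ε).toFun g :=
  cuspVal_glFinMap σ hS hσ hσ' ε g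

/-- The kernel of the type is invariant under the automorphism. -/
theorem kernel_galFin (hU : IsTypeLevel S U) (σ : F ≃+* F)
    (hS : ∀ v, comapPlace (σ : F →+* F) v ∈ S.places ↔ v ∈ S.places)
    (hσ : ∀ g ∈ U.toSubgroup, glFinMap (σ : F →+* F) g ∈ U.toSubgroup)
    (hσ' : ∀ g ∈ U.toSubgroup, glFinMap (σ.symm : F →+* F) g ∈ U.toSubgroup)
    (ε : Fin 2) (a b : GLFin F ⧸ U.toSubgroup) :
    (cuspFn hU ε).kernel (galFin σ U hσ a) (galFin σ U hσ b) = (cuspFn hU ε).kernel a b := by
  refine QuotientGroup.induction_on a fun g => QuotientGroup.induction_on b fun h => ?_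
  rw [galFin_mk, galFin_mk, HeckeFn.kernel_mk, HeckeFn.kernel_mk, ← map_inv, ← map_mul,
    cuspFn_glFinMap hU σ hS hσ hσ']

/-- An automorphism preserving the level permutes the cosets of the level. -/
theorem galFin_bijective (σ : F ≃+* F)
    (hσ : ∀ g ∈ U.toSubgroup, glFinMap (σ : F →+* F) g ∈ U.toSubgroup)
    (hσ' : ∀ g ∈ U.toSubgroup, glFinMap (σ.symm : F →+* F) g ∈ U.toSubgroup) :
    Function.Bijective (galFin σ U hσ) := by
  refine Function.bijective_iff_has_inverse.2 ⟨galFin σ.symm U hσ', fun a => ?_, fun a => ?_⟩ <;>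
    refine QuotientGroup.induction_on a fun g => ?_ <;> simp only [galFin_mk]
  · rw [glFinMap_symm_apply]
  · congr 1
    simpa using glFinMap_symm_apply σ.symm g

/-- The operator of `e'` commutes with the action of the automorphism. -/
theorem cuspFn_op_galY (hU : IsTypeLevel S U) (σ : F ≃+* F)
    (hS : ∀ v, comapPlace (σ : F →+* F) v ∈ S.places ↔ v ∈ S.places)
    (hσ : ∀ g ∈ U.toSubgroup, glFinMap (σ : F →+* F) g ∈ U.toSubgroup)
    (hσ' : ∀ g ∈ U.toSubgroup, glFinMap (σ.symm : F →+* F) g ∈ U.toSubgroup)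
    (ε : Fin 2) (φ : Y U → ℂ) :
    (cuspFn hU ε).op (φ ∘ galY σ U hσ) = (cuspFn hU ε).op φ ∘ galY σ U hσ := by
  funext y
  refine finsum_eq_of_bijective _ (galFin_bijective σ hσ hσ') fun b => ?_
  show _ = (cuspFn hU ε).kernel (galFin σ U hσ y.2) (galFin σ U hσ b) * _
  rw [kernel_galFin hU σ hS hσ hσ']
  rfl

end Fermat.Agent.LT.CuspType

end
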