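import Fermat.Agent.LT.CuspType.Basic

/-!
# The type commutes with Hecke operators away from its places

A Hecke function invariant under conjugation by the group of the type commutes with the idempotent
of the type; this applies to the Hecke operators at the good places outside the type.
-/

set_option autoImplicit false

noncomputable section

open Matrix
open scoped NumberField Classical

namespace Fermat.Agent.LT.CuspType

open Places

variable {F : Type*} [Field F] [NumberField F] {S : ThreeSet F} {U : Level F}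

theorem conj_level_of_mem (hU : IsTypeLevel S U) {g u : GLFin F} (hg : g ∈ maxSub F)
    (hu : u ∈ U.toSubgroup) : g⁻¹ * u * g ∈ U.toSubgroup := by
  have := hU.normal _ ((maxSub F).inv_mem hg) u hu
  rwa [inv_inv] at this

/-- Right translation of cosets by an element normalising the level. -/
def rightMul (hU : IsTypeLevel S U) (g : maxSub F) :
    GLFin F ⧸ U.toSubgroup ≃ GLFin F ⧸ U.toSubgroup where
  toFun := Quotient.map' (fun b => b * g.1) fun a b h => by
    rw [QuotientGroup.leftRel_apply] at h ⊢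
    rw [show (a * g.1)⁻¹ * (b * g.1) = g.1⁻¹ * (a⁻¹ * b) * g.1 by group]
    exact conj_level_of_mem hU g.2 h
  invFun := Quotient.map' (fun b => b * g.1⁻¹) fun a b h => by
    rw [QuotientGroup.leftRel_apply] at h ⊢
    rw [show (a * g.1⁻¹)⁻¹ * (b * g.1⁻¹) = g.1 * (a⁻¹ * b) * g.1⁻¹ by group]
    exact hU.normal _ g.2 _ h
  left_inv b := by
    refine QuotientGroup.induction_on b fun x => ?_
    show (QuotientGroup.mk (x * g.1 * g.1⁻¹) : GLFin F ⧸ U.toSubgroup) = _
    rw [mul_inv_cancel_right]
  right_inv b := by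
    refine QuotientGroup.induction_on b fun x => ?_
    show (QuotientGroup.mk (x * g.1⁻¹ * g.1) : GLFin F ⧸ U.toSubgroup) = _
    rw [inv_mul_cancel_right]

theorem finite_support_kernel (h : HeckeFn U) (x : GLFin F) :
    {d : GLFin F ⧸ U.toSubgroup | h.kernel (QuotientGroup.mk x) d ≠ 0}.Finite := by
  refine (h.finite_support.image fun s => x • s).subset fun d hd => ?_
  revert hd
  refine QuotientGroup.induction_on d fun g hd => ?_
  exact ⟨QuotientGroup.mk (x⁻¹ * g), ⟨x⁻¹ * g, hd, rfl⟩, by simp [← mul_assoc]⟩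

/-- `e'` commutes with every Hecke function invariant under conjugation by its group. -/
theorem cuspFn_op_comm (hU : IsTypeLevel S U) (ε : Fin 2) (h : HeckeFn U)
    (hconj : ∀ g ∈ typeSub S U, ∀ x, h.toFun (g⁻¹ * x * g) = h.toFun x) (φ : Y U → ℂ) :
    (cuspFn hU ε).op (h.op φ) = h.op ((cuspFn hU ε).op φ) := by
  funext ⟨P, c⟩
  refine QuotientGroup.induction_on c fun x => ?_
  let R : TypeQuot S U → (GLFin F ⧸ U.toSubgroup ≃ GLFin F ⧸ U.toSubgroup) := fun q =>
    rightMul hU ⟨rep q, typeSub_le_maxSub S U (rep_mem q)⟩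
  have hR : ∀ b, (cuspFn hU ε).op φ (P, b) =
      ∑ q, cuspVal S U ε (rep q) * φ (P, R q b) := fun b =>
    QuotientGroup.induction_on b fun y => cuspFn_op hU ε φ P y
  have hL : ∀ q, h.op φ (P, QuotientGroup.mk (x * rep q)) =
      ∑ᶠ b, h.kernel (QuotientGroup.mk x) b * φ (P, R q b) := by
    intro q
    refine (finsum_eq_of_bijective (R q) (R q).bijective fun b => ?_).symm
    refine QuotientGroup.induction_on b fun y => ?_
    show h.toFun (x⁻¹ * y) * φ (P, QuotientGroup.mk (y * rep q)) =
      h.toFun ((x * rep q)⁻¹ * (y * rep q)) * φ (P, QuotientGroup.mk (y * rep q))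
    rw [show (x * rep q)⁻¹ * (y * rep q) = (rep q)⁻¹ * (x⁻¹ * y) * rep q by group,
      hconj _ (rep_mem q)]
  rw [cuspFn_op]
  simp only [hL]
  show _ = ∑ᶠ b, h.kernel (QuotientGroup.mk x) b * (cuspFn hU ε).op φ (P, b)
  set T := (finite_support_kernel h x).toFinset with hT
  have hsub : ∀ f : GLFin F ⧸ U.toSubgroup → ℂ,
      ∑ᶠ b, h.kernel (QuotientGroup.mk x) b * f b = ∑ b ∈ T, h.kernel (QuotientGroup.mk x) b * f b :=
    fun f => finsum_eq_sum_of_support_subset _ fun b hb =>
      Finset.mem_coe.2 ((Set.Finite.mem_toFinset _).2 fun h0 => hb (by simp [h0]))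
  rw [hsub fun b => (cuspFn hU ε).op φ (P, b)]
  simp only [hsub, hR, Finset.mul_sum]
  rw [Finset.sum_comm]
  exact Finset.sum_congr rfl fun b _ => Finset.sum_congr rfl fun q _ => by ring

/-- `e'` commutes with `T_v` at a good place outside the type. -/
theorem cuspFn_op_heckeAt (hU : IsTypeLevel S U) (ε : Fin 2) {v : FinPlace F}
    (hv : IsGoodAt U v) (hvS : v ∉ S.places) (φ : Y U → ℂ) :
    (cuspFn hU ε).op ((heckeAt U v hv).op φ) = (heckeAt U v hv).op ((cuspFn hU ε).op φ) := by
  have key : ∀ g ∈ typeSub S U, ∀ x ∈ heckeSet U v, g⁻¹ * x * g ∈ heckeSet U v := by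
    intro g hg x hx
    obtain ⟨l, hl, u, hu, rfl⟩ := (mem_typeSub hU).1 hg
    obtain ⟨a, ha, b, hb, rfl⟩ := hx
    have hc : piGL v * l = l * piGL v := localGL_mul_comm _ (by
      rw [hl.2 v hvS]; exact Commute.one_right _)
    have hlM := intSub_le_maxSub (F := F) hl.1
    refine ⟨u⁻¹ * (l⁻¹ * a * l), mul_mem (inv_mem hu) (conj_level_of_mem hU hlM ha),
      l⁻¹ * b * l * u, mul_mem (conj_level_of_mem hU hlM hb) hu, ?_⟩
    have hc' : l⁻¹ * piGL v * l = piGL v := by rw [mul_assoc, hc, inv_mul_cancel_left]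
    conv_rhs => rw [← hc']
    group
  refine cuspFn_op_comm hU ε _ (fun g hg x => ?_) φ
  have iff : g⁻¹ * x * g ∈ heckeSet U v ↔ x ∈ heckeSet U v := by
    refine ⟨fun h => ?_, key g hg x⟩
    have := key g⁻¹ (inv_mem hg) _ h
    rwa [inv_inv, show g * (g⁻¹ * x * g) * g⁻¹ = x by group] at this
  simp only [heckeAt, iff]

end Fermat.Agent.LT.CuspType

end
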