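import Fermat.Agent.LT.CuspType.Residue

/-!
# The group of the type and its finite quotient

`typeSub S U` is generated by the level and `∏_{v ∈ S} GL₂(O_v)`.
-/

set_option autoImplicit false

noncomputable section

open Matrix
open scoped NumberField Classical

namespace Fermat.Agent.LT.CuspType

open Places

variable {F : Type*} [Field F] [NumberField F] (S : ThreeSet F) (U : Level F)

/-- `∏_{v ∈ S} GL₂(O_v)`. -/
def awaySub : Subgroup (GLFin F) where
  carrier := {k | Reduction.IntGL k ∧ ∀ w, w ∉ S.places → glPlace w k = 1}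
  one_mem' := ⟨Reduction.IntGL.one, fun w _ => map_one _⟩
  mul_mem' := fun {g h} hg hh => ⟨hg.1.mul hh.1, fun w hw => by
    rw [map_mul, hg.2 w hw, hh.2 w hw, one_mul]⟩
  inv_mem' := fun {g} hg => ⟨hg.1.inv, fun w hw => by rw [map_inv, hg.2 w hw, inv_one]⟩

theorem conj_mem_awaySub {g l : GLFin F} (hg : Reduction.IntGL g) (hl : l ∈ awaySub S) :
    g * l * g⁻¹ ∈ awaySub S :=
  ⟨(hg.mul hl.1).mul hg.inv, fun w hw => by
    rw [map_mul, map_mul, hl.2 w hw, mul_one, map_inv, mul_inv_cancel]⟩

/-- An integral matrix at a place of `S` lies in `∏_{v ∈ S} GL₂(O_v)`. -/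
theorem localGL_mem_awaySub (v : S.places) {k : GL (Fin 2) ((v : FinPlace F).adicCompletion F)}
    (hk : k ∈ intGroup (v : FinPlace F)) : localGL (v : FinPlace F) k ∈ awaySub S := by
  refine ⟨intGL_iff.2 fun w => ?_,
    fun w hw => glPlace_localGL_ne (fun h => hw (by rw [h]; exact v.2)) k⟩
  rcases eq_or_ne w (v : FinPlace F) with rfl | hw
  · rwa [glPlace_localGL_same]
  · rw [glPlace_localGL_ne hw]
    exact one_mem _

/-- A level carrying the type. -/
structure IsTypeLevel : Prop where
  normal : ∀ g ∈ maxSub F, ∀ u ∈ U.toSubgroup, g * u * g⁻¹ ∈ U.toSubgroup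
  perm : ∀ u ∈ U.toSubgroup, ∀ v, placePerm S v u = 1

/-- The group of the type. -/
def typeSub : Subgroup (GLFin F) := awaySub S ⊔ U.toSubgroup

/-- The level lies in the group of the type. -/
theorem level_le_typeSub : U.toSubgroup ≤ typeSub S U := le_sup_right

/-- `∏_{v ∈ S} GL₂(O_v)` lies in the group of the type. -/
theorem away_le_typeSub : awaySub S ≤ typeSub S U := le_sup_left

/-- The group of the type lies in `A_f* · GL₂(Ô)`. -/
theorem typeSub_le_maxSub : typeSub S U ≤ maxSub F :=
  sup_le (fun _ hk => intSub_le_maxSub hk.1) fun _ hu => level_le_maxSub U hu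

variable {S U}

/-- Elements of the group of the type factor as a product of the two generating subgroups. -/
theorem mem_typeSub (hU : IsTypeLevel S U) {g : GLFin F} :
    g ∈ typeSub S U ↔ ∃ l ∈ awaySub S, ∃ u ∈ U.toSubgroup, g = l * u := by
  constructor
  · intro hg
    let T : Subgroup (GLFin F) :=
      { carrier := {x | ∃ l ∈ awaySub S, ∃ u ∈ U.toSubgroup, x = l * u}
        one_mem' := ⟨1, one_mem _, 1, one_mem _, (one_mul 1).symm⟩
        mul_mem' := by
          rintro _ _ ⟨l, hl, u, hu, rfl⟩ ⟨m, hm, w, hw, rfl⟩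
          refine ⟨l * m, mul_mem hl hm, m⁻¹ * u * m * w, mul_mem ?_ hw, by group⟩
          have := hU.normal _ (intSub_le_maxSub hm.1.inv) u hu
          rwa [inv_inv] at this
        inv_mem' := by
          rintro _ ⟨l, hl, u, hu, rfl⟩
          exact ⟨l⁻¹, inv_mem hl, l * u⁻¹ * l⁻¹,
            hU.normal _ (intSub_le_maxSub hl.1) _ (inv_mem hu), by group⟩ }
    have : typeSub S U ≤ T :=
      sup_le (fun l hl => ⟨l, hl, 1, one_mem _, (mul_one l).symm⟩)
        fun u hu => ⟨1, one_mem _, u, hu, (one_mul u).symm⟩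
    exact this hg
  · rintro ⟨l, hl, u, hu, rfl⟩
    exact mul_mem (away_le_typeSub S U hl) (level_le_typeSub S U hu)

/-- `GL₂(Ô)` normalises the group of the type. -/
theorem conj_mem_typeSub (hU : IsTypeLevel S U) {g x : GLFin F} (hg : Reduction.IntGL g)
    (hx : x ∈ typeSub S U) : g * x * g⁻¹ ∈ typeSub S U := by
  obtain ⟨l, hl, u, hu, rfl⟩ := (mem_typeSub hU).1 hx
  rw [show g * (l * u) * g⁻¹ = g * l * g⁻¹ * (g * u * g⁻¹) by group]
  exact mul_mem (away_le_typeSub S U (conj_mem_awaySub S hg hl))
    (level_le_typeSub S U (hU.normal _ (intSub_le_maxSub hg) u hu))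

omit [NumberField F] in
theorem scalar_conj (a : (FinAdele F)ˣ) (k x : GLFin F) :
    scalarFin F a * k * x * (scalarFin F a * k)⁻¹ = k * x * k⁻¹ := by
  rw [show scalarFin F a * k * x * (scalarFin F a * k)⁻¹ =
    scalarFin F a * (k * x * k⁻¹) * (scalarFin F a)⁻¹ by group, scalarFin_comm, mul_inv_cancel_right]

/-- Principal levels with three dividing the level. -/
theorem isTypeLevel_principal {N : ℕ} (hN : 0 < N) (h3 : 3 ∣ N) :
    IsTypeLevel S (Level.principal F N hN) := by
  constructor
  · rintro g ⟨a, k, hk, rfl⟩ u ⟨b, l, hl, rfl⟩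
    rw [scalar_conj]
    refine ⟨b, k * l * k⁻¹, fun i j => ?_, ?_⟩
    · have key : ∀ l : GLFin F, IsPrincipal F N l → ∀ i j, ∃ c ∈ integralAdele F,
          (k * l * k⁻¹).val i j = (1 : Matrix (Fin 2) (Fin 2) (FinAdele F)) i j + N * c := by
        intro l hl i j
        choose A hA eA using hl.left
        refine ⟨(k.val * Matrix.of A * (k⁻¹).val) i j, ?_, ?_⟩
        · simp only [Matrix.mul_apply]
          exact sum_mem fun q _ => mul_mem (sum_mem fun p _ => mul_mem (hk.1 i p) (hA p q)) (hk.2 q j)
        · have e : l.val = 1 + (N : FinAdele F) • Matrix.of A := Matrix.ext fun p q => by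
            simp [eA]
          simp only [Units.val_mul, e, mul_add, add_mul, mul_one, Units.mul_inv, Matrix.add_apply]
          congr 1
          simp [Matrix.mul_apply, Fin.sum_univ_two]
          ring
      obtain ⟨c, hc, e⟩ := key l hl i j
      obtain ⟨d, hd, e'⟩ := key l⁻¹ hl.inv i j
      exact ⟨c, hc, d, hd, e, by rw [show (k * l * k⁻¹)⁻¹ = k * l⁻¹ * k⁻¹ by group]; exact e'⟩
    · rw [← mul_assoc, ← scalarFin_comm b k]
      simp only [mul_assoc]
  · rintro u ⟨b, l, hl, rfl⟩ v
    have hl1 := Reduction.intGL_of_isPrincipal (hl.of_dvd (one_dvd N))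
    have hk := placePerm_scalar_mul S v b (⟨l, hl1⟩ : intSub F)
    rw [hk]
    refine permThree_scalar (c := 1) (Matrix.ext fun i j => ?_)
    obtain ⟨c, hc, e⟩ := hl.left i j
    obtain ⟨m, rfl⟩ := h3
    rw [redGL_apply, one_smul,
      show (⟨l.val i j, hl1.1 i j⟩ : integralAdele F) =
        (if i = j then 1 else 0) + ((3 * m : ℕ) : integralAdele F) * ⟨c, hc⟩ from
        Subtype.ext (by
          refine e.trans ?_
          rw [Matrix.one_apply]
          split_ifs <;> push_cast <;> rfl),
      map_add, map_mul, map_natCast]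
    have h30 : ((3 * m : ℕ) : ZMod 3) = 0 :=
      (ZMod.natCast_eq_zero_iff (3 * m) 3).2 (dvd_mul_right 3 m)
    by_cases hij : i = j <;> simp [hij, h30, Matrix.one_apply]

/-- Ideal levels with the places dividing the ideal. -/
theorem isTypeLevel_ofIdeal {I : Ideal (𝓞 F)} (hI : ∃ N : ℕ, 0 < N ∧ (N : 𝓞 F) ∈ I)
    (hS : ∀ v ∈ S.places, I ≤ v.asIdeal) : IsTypeLevel S (Level.ofIdeal F I hI) := by
  constructor
  · rintro g ⟨a, k, hk, rfl⟩ u hu
    obtain ⟨b, l, hl, rfl⟩ := mem_ofIdeal.1 hu
    rw [scalar_conj]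
    refine mem_ofIdeal.2 ⟨b, k * l * k⁻¹, ⟨?_, fun i j => ?_⟩, ?_⟩
    · intro i j
      have h := (hk.mul (Reduction.intGL_of_isPrincipal hl.1)).mul hk.inv
      refine ⟨_, sub_mem (h.1 i j) (Reduction.IntGL.one.1 i j), _,
        sub_mem (h.2 i j) (Reduction.IntGL.one.1 i j), ?_, ?_⟩ <;> simp
    · have e : (k * l * k⁻¹).val - 1 = k.val * (l.val - 1) * (k⁻¹).val := by
        simp only [Units.val_mul, mul_sub, sub_mul, mul_one, Units.mul_inv]
      rw [← Matrix.sub_apply, e]
      simp only [Matrix.mul_apply]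
      refine sum_mem fun q _ => mul_mem_idealAdele (sum_mem fun p _ => ?_) (hk.2 q j)
      rw [mul_comm]
      exact mul_mem_idealAdele (hl.2 p q) (hk.1 i p)
    · rw [← mul_assoc, ← scalarFin_comm b k]
      simp only [mul_assoc]
  · intro u hu v
    obtain ⟨b, l, hl, rfl⟩ := mem_ofIdeal.1 hu
    have hl1 := Reduction.intGL_of_isPrincipal hl.1
    rw [placePerm_scalar_mul S v b (⟨l, hl1⟩ : intSub F)]
    refine permThree_scalar (c := 1) (Matrix.ext fun i j => ?_)
    have key : ∀ x ∈ idealAdele F I, ∀ hx : x ∈ integralAdele F,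
        red S v (⟨x, hx⟩ : integralAdele F) = 0 := by
      intro x hxI hx
      rw [red_eq_zero_iff]
      show placeVal _ x < 1
      clear hx
      induction hxI using AddSubgroup.closure_induction with
      | mem y hy =>
        obtain ⟨o, ho, c, hc, rfl⟩ := hy
        rw [placeVal_mul]
        exact (mul_le_of_le_one_right' (placeVal_le_one _ hc)).trans_lt
          ((placeVal_finIncl_lt_one_iff _ o).2 (hS v v.2 ho))
      | zero => simp [placeVal]
      | add y z _ _ iy iz => exact (placeVal_add_le _ _ _).trans_lt (max_lt iy iz)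
      | neg y _ iy => simpa [placeVal] using iy
    have h1 : (1 : Matrix (Fin 2) (Fin 2) (integralAdele F)) i j = if i = j then 1 else 0 :=
      Matrix.one_apply
    have := key _ (hl.2 i j) (sub_mem (hl1.1 i j) (Reduction.IntGL.one.1 i j))
    rw [redGL_apply, one_smul, ← sub_eq_zero, Matrix.one_apply,
      show (if i = j then (1 : ZMod 3) else 0) = red S v (if i = j then 1 else 0) by
        split_ifs <;> simp,
      ← map_sub]
    refine (congrArg _ (Subtype.ext ?_)).trans this
    by_cases hij : i = j <;> simp [hij, Matrix.one_apply]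

variable (S) in
/-- The vector of permutations. -/
def permVec (g : GLFin F) : S.places → Equiv.Perm (Fin 3) := fun v => placePerm S v g

/-- `permVec S` is multiplicative on `A_f* · GL₂(Ô)`. -/
theorem permVec_mul {g h : GLFin F} (hg : g ∈ maxSub F) (hh : h ∈ maxSub F) :
    permVec S (g * h) = permVec S g * permVec S h :=
  funext fun v => placePerm_mul S v hg hh

/-- `permVec` commutes with inverses on `A_f* · GL₂(Ô)`. -/
theorem permVec_inv {g : GLFin F} (hg : g ∈ maxSub F) : permVec S g⁻¹ = (permVec S g)⁻¹ :=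
  funext fun v => placePerm_inv S v hg

/-- `1` gives the trivial permutations. -/
theorem permVec_one : permVec S (1 : GLFin F) = 1 := funext fun v => placePerm_one S v

/-- The level gives the trivial permutations. -/
theorem permVec_level (hU : IsTypeLevel S U) {u : GLFin F} (hu : u ∈ U.toSubgroup) :
    permVec S u = 1 :=
  funext fun v => hU.perm u hu v

/-- An element supported at one place. -/
theorem permVec_of_local (v : S.places) {k : intSub F}
    (h : ∀ w : S.places, w ≠ v → glPlace (w : FinPlace F) k.1 = 1) :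
    permVec S k.1 = Pi.mulSingle v (placePerm S v k.1) := by
  funext w
  rcases eq_or_ne w v with rfl | hw
  · rw [Pi.mulSingle_eq_same]; rfl
  · rw [Pi.mulSingle_eq_of_ne hw]
    show placePerm S w k.1 = 1
    rw [placePerm_congr S w (l := 1) (by rw [h w hw]; simp)]
    exact placePerm_one S w

theorem exists_flip (v : S.places) :
    ∃ d ∈ awaySub S, permVec S d = Pi.mulSingle v flipPerm := by
  have hd : (dia (-1) : GL (Fin 2) ((v : FinPlace F).adicCompletion F)) ∈
      intGroup (v : FinPlace F) :=
    mem_intGroup_iff.2 ⟨fun i j => by fin_cases i <;> fin_cases j <;> simp [dia],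
      by simp [dia, Matrix.det_fin_two]⟩
  have hmem := localGL_mem_awaySub S v hd
  refine ⟨_, hmem, ?_⟩
  rw [permVec_of_local v (k := ⟨_, hmem.1⟩) fun w hw =>
    glPlace_localGL_ne (fun h => hw (Subtype.ext h)) _]
  congr 1
  rw [placePerm_int S v ⟨_, hmem.1⟩]
  refine permThree_diag (Matrix.ext fun i j => ?_)
  have hval : ∀ i j, toPlace (v : FinPlace F) ((localGL (v : FinPlace F) (dia (-1))).val i j) =
      (dia (-1) : GL (Fin 2) ((v : FinPlace F).adicCompletion F)).val i j := fun i j => by
    rw [← glPlace_apply, glPlace_localGL_same]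
  rw [redGL_apply]
  fin_cases i <;> fin_cases j
  · exact (red_congr S v (y := -1) ((hval 0 0).trans (by simp [dia]))).trans
      (by simp only [map_neg, map_one]; rfl)
  · exact (red_congr S v (y := 0) ((hval 0 1).trans (by simp [dia]))).trans (map_zero _)
  · exact (red_congr S v (y := 0) ((hval 1 0).trans (by simp [dia]))).trans (map_zero _)
  · exact (red_congr S v (y := 1) ((hval 1 1).trans (by simp [dia]))).trans (map_one _)

/-- An element with integral entries, square zero and nonzero residue at `v`. -/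
theorem exists_rot_of_nilpotent (v : S.places) {l : intSub F}
    (hsq : ∀ i j, toPlace (v : FinPlace F) (((l.1.val - 1) * (l.1.val - 1)) i j) = 0)
    (hne : ∃ i j, placeVal (v : FinPlace F)
      (l.1.val i j - (1 : Matrix (Fin 2) (Fin 2) (FinAdele F)) i j) = 1) :
    ∀ a, placePerm S v l.1 a ≠ a := by
  rw [placePerm_int]
  set M : Matrix (Fin 2) (Fin 2) (integralAdele F) := (toIntGL l).val - 1 with hM
  have hcoe : ∀ i j, (M i j : FinAdele F) = (l.1.val - 1) i j := fun i j => by
    by_cases hij : i = j <;> simp [hM, toIntGL_apply, hij]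
  have hred : (redGL S v l).val - 1 = M.map (red S v) := by
    rw [hM, Matrix.map_sub _ (map_sub _), Matrix.map_one _ (map_zero _) (map_one _)]
    rfl
  refine permThree_unipotent ?_ ?_
  · rw [hred, ← Matrix.map_mul]
    ext i j
    rw [Matrix.map_apply, Matrix.zero_apply, red_eq_zero_iff, placeVal,
      show ((M * M) i j : FinAdele F) = ((l.1.val - 1) * (l.1.val - 1)) i j by
        simp only [Matrix.mul_apply, Fin.sum_univ_two]; push_cast; simp only [hcoe],
      hsq, map_zero]
    exact zero_lt_one
  · obtain ⟨i, j, hij⟩ := hne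
    intro h
    have h0 : red S v (M i j) = 0 := by
      have := congrFun (congrFun hred i) j
      rwa [h, sub_self, Matrix.zero_apply, Matrix.map_apply, eq_comm] at this
    rw [red_eq_zero_iff, hcoe, Matrix.sub_apply, hij] at h0
    exact lt_irrefl _ h0

/-- The unipotent at `v`. -/
def unipAt (v : S.places) : GLFin F := unip (idem (v : FinPlace F))

/-- The component at `w` of a unipotent. -/
theorem glPlace_unip (w : FinPlace F) (x : FinAdele F) :
    glPlace w (unip x) = unip (toPlace w x) :=
  Units.ext (Matrix.ext fun i j => by fin_cases i <;> fin_cases j <;> simp [glPlace_apply])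

/-- `unipAt v` lies in `∏_{v ∈ S} GL₂(O_v)`. -/
theorem unipAt_mem (v : S.places) : unipAt v ∈ awaySub S := by
  refine ⟨intGL_iff.2 fun w => ?_, fun w hw => ?_⟩
  · rw [unipAt, glPlace_unip]
    exact unip_mem (placeVal_le_one w (idem_mem_integralAdele _))
  · rw [unipAt, glPlace_unip, toPlace_idem_ne fun h => hw (by rw [h]; exact v.2)]
    exact AddChar.map_zero_eq_one _

/-- `unipAt v` acts by a three cycle at `v` and trivially at the other places of `S`. -/
theorem permVec_unipAt (v : S.places) :
    ∃ r : Equiv.Perm (Fin 3), (∀ a, r a ≠ a) ∧ permVec S (unipAt v) = Pi.mulSingle v r := by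
  refine ⟨placePerm S v (unipAt v), ?_, permVec_of_local v (k := ⟨_, (unipAt_mem v).1⟩) fun w hw =>
    ?_⟩
  · refine exists_rot_of_nilpotent v (l := ⟨_, (unipAt_mem v).1⟩) (fun i j => ?_) ⟨0, 1, ?_⟩
    · fin_cases i <;> fin_cases j <;> simp [unipAt, Matrix.mul_apply, Fin.sum_univ_two]
    · simp [unipAt, placeVal, toPlace_idem_same]
  · show glPlace (w : FinPlace F) (unipAt v) = 1
    rw [unipAt, glPlace_unip, toPlace_idem_ne fun h => hw (Subtype.ext h)]
    exact AddChar.map_zero_eq_one _

/-- Surjectivity on the finite quotient. -/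
theorem exists_permVec_eq (y : S.places → Equiv.Perm (Fin 3)) :
    ∃ l ∈ awaySub S, permVec S l = y := by
  classical
  suffices h : ∀ s : Finset S.places, ∀ y : S.places → Equiv.Perm (Fin 3),
      (∀ i ∉ s, y i = 1) → ∃ l ∈ awaySub S, permVec S l = y from
    h Finset.univ y fun i hi => absurd (Finset.mem_univ i) hi
  intro s
  induction s using Finset.induction_on with
  | empty => exact fun y hy => ⟨1, one_mem _, permVec_one.trans (funext fun i => (hy i (by simp)).symm)⟩
  | insert v s hv ih =>
    intro y hy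
    obtain ⟨l, hl, hly⟩ := ih (Function.update y v 1) fun i hi => by
      rcases eq_or_ne i v with rfl | hiv
      · simp
      · rw [Function.update_of_ne hiv]
        exact hy i (by simp [hi, hiv])
    obtain ⟨r, hr, hru⟩ := permVec_unipAt v
    obtain ⟨d, hd, hdv⟩ := exists_flip (S := S) v
    obtain ⟨i, j, hij⟩ := exists_pow_mul_flip_pow hr (y v)
    have hm : ∀ x ∈ awaySub S, x ∈ maxSub F := fun x hx => intSub_le_maxSub hx.1
    have hpow : ∀ x ∈ awaySub S, ∀ n : ℕ, permVec S (x ^ n) = permVec S x ^ n := by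
      intro x hx n
      induction n with
      | zero => simp [permVec_one]
      | succ n ihn =>
        rw [pow_succ, pow_succ, permVec_mul (hm _ (pow_mem hx n)) (hm _ hx), ihn]
    refine ⟨unipAt v ^ (i : ℕ) * d ^ (j : ℕ) * l,
      mul_mem (mul_mem (pow_mem (unipAt_mem v) _) (pow_mem hd _)) hl, ?_⟩
    rw [permVec_mul (hm _ (mul_mem (pow_mem (unipAt_mem v) _) (pow_mem hd _))) (hm _ hl),
      permVec_mul (hm _ (pow_mem (unipAt_mem v) _)) (hm _ (pow_mem hd _)),
      hpow _ (unipAt_mem v), hpow _ hd, hru, hdv, hly]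
    funext w
    rcases eq_or_ne w v with rfl | hwv
    · simp [hij]
    · simp [hwv]

end Fermat.Agent.LT.CuspType

end
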