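import Fermat.Agent.LT.CuspType.Galois
import Fermat.Agent.LT.CuspType.Cusp
import Fermat.Agent.LT.PlaceMatching.Kernels

/-!
# The type as a product of local kernels

On a level `Level.ofIdeal F I`, `e'` is the Hecke function of the family which is the local
kernel of the type at the places of `S` and trivial elsewhere.
-/

set_option autoImplicit false

noncomputable section

open Matrix
open scoped NumberField Classical

namespace Fermat.Agent.LT.CuspType

open Places PlaceMatching

variable {F : Type*} [Field F] [NumberField F] (S : ThreeSet F)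

/-- One of the places alone. -/
def ThreeSet.single (v : S.places) : ThreeSet F where
  places := {(v : FinPlace F)}
  card_residue w hw := by
    rw [Finset.mem_singleton] at hw
    subst hw
    exact S.card_residue _ v.2

/-- The place of `S.single v`. -/
def singlePt (v : S.places) : (S.single v).places := ⟨v, Finset.mem_singleton_self _⟩

omit [NumberField F] in
/-- `S.single v` has a single place. -/
theorem eq_singlePt {v : S.places} (w : (S.single v).places) : w = singlePt S v :=
  Subtype.ext (Finset.mem_singleton.1 w.2)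

variable {S}

theorem red_eq_red {S' : ThreeSet F} (v : S.places) (w : S'.places)
    (e : (w : FinPlace F) = v) (x : integralAdele F) : red S' w x = red S v x := by
  have hρ : rho S' w = rho S v :=
    ringHom_zmod_three_ext fun o => by rw [rho_eq_zero_iff, rho_eq_zero_iff, e]
  show rho S' w (redRep x) = rho S v (redRep x)
  rw [hρ]

/-- The permutation at a place depends only on the component. -/
theorem placePerm_localGL {S' : ThreeSet F} (v : S.places) (w : S'.places)
    (e : (w : FinPlace F) = v) {g : GLFin F} (hg : g ∈ maxSub F) :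
    placePerm S' w (localGL (v : FinPlace F) (glPlace (v : FinPlace F) g)) = placePerm S v g := by
  obtain ⟨a, k, hk, rfl⟩ := hg
  set c := glPlace (v : FinPlace F) k
  have hkv : c ∈ intGroup (v : FinPlace F) := intGL_iff.1 hk v
  have hl := (localGL_mem_awaySub S v hkv).1
  have hsc : localGL (v : FinPlace F) (glPlace (v : FinPlace F) (scalarFin F a)) =
      scalarFin F (localUnit (v : FinPlace F)
        (Units.map ((toPlace (v : FinPlace F)).toRingHom : FinAdele F →* _) a)) := by
    refine gl_ext fun u => Units.ext (Matrix.ext fun i j => ?_)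
    rcases eq_or_ne u (v : FinPlace F) with rfl | hu
    · rw [glPlace_localGL_same, glPlace_scalarFin_apply, glPlace_scalarFin_apply,
        toPlace_localUnit_same]
      rfl
    · rw [glPlace_localGL_ne hu, glPlace_scalarFin_apply, toPlace_localUnit_ne hu]
      by_cases hij : i = j <;> simp [hij]
  rw [map_mul, map_mul, hsc,
    show localGL (v : FinPlace F) c = (⟨_, hl⟩ : intSub F).1 from rfl, placePerm_scalar_mul,
    placePerm_scalar_mul S v a ⟨k, hk⟩]
  congr 1
  refine Units.ext (Matrix.ext fun i j => ?_)
  rw [redGL_apply, redGL_apply, red_eq_red v w e]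
  refine red_congr S v ?_
  show toPlace (v : FinPlace F) ((localGL (v : FinPlace F) c).val i j) = _
  rw [← glPlace_apply, glPlace_localGL_same]
  rfl

variable (S) {I : Ideal (𝓞 F)} (hI : ∃ N : ℕ, 0 < N ∧ (N : 𝓞 F) ∈ I)

/-- An element of the local level gives an element of the level. -/
theorem localGL_mem_ofIdeal {v : FinPlace F} {u : GL (Fin 2) (v.adicCompletion F)}
    (hu : u ∈ locLevel I v) : localGL v u ∈ (Level.ofIdeal F I hI).toSubgroup := by
  refine (mem_ofIdeal_iff_forall hI).2 fun w => ?_
  rcases eq_or_ne w v with rfl | hw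
  · rwa [glPlace_localGL_same]
  · rw [glPlace_localGL_ne hw]
    exact one_mem _

theorem localGL_glPlace_mem_ofIdeal {g : GLFin F} (hg : g ∈ (Level.ofIdeal F I hI).toSubgroup)
    (v : FinPlace F) : localGL v (glPlace v g) ∈ (Level.ofIdeal F I hI).toSubgroup :=
  localGL_mem_ofIdeal hI ((mem_ofIdeal_iff_forall hI).1 hg v)

variable {S} (hS : ∀ v ∈ S.places, I ≤ v.asIdeal)

include hS in
/-- The level also carries the type at one of the places alone. -/
theorem isTypeLevel_single (v : S.places) :
    IsTypeLevel (S.single v) (Level.ofIdeal F I hI) :=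
  isTypeLevel_ofIdeal hI fun w hw => by
    rw [Finset.mem_singleton.1 hw]
    exact hS _ v.2

omit hS in
theorem awaySub_single_le (v : S.places) : awaySub (S.single v) ≤ awaySub S := fun _ hl =>
  ⟨hl.1, fun w hw => hl.2 w fun h => hw (by rw [Finset.mem_singleton.1 h]; exact v.2)⟩

omit hS in
theorem typeSub_single_le (U : Level F) (v : S.places) :
    typeSub (S.single v) U ≤ typeSub S U :=
  sup_le ((awaySub_single_le v).trans (away_le_typeSub S U)) (level_le_typeSub S U)

omit hS in
theorem exists_glue_local (t : ∀ v : S.places, GL (Fin 2) ((v : FinPlace F).adicCompletion F))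
    (H : Subgroup (GLFin F)) (hH : ∀ v : S.places, localGL (v : FinPlace F) (t v) ∈ H) :
    ∃ x ∈ H, (∀ v : S.places, glPlace (v : FinPlace F) x = t v) ∧
      ∀ u, u ∉ S.places → glPlace u x = 1 := by
  suffices h : ∀ s : Finset S.places, ∃ x ∈ H,
      (∀ v : S.places, v ∈ s → glPlace (v : FinPlace F) x = t v) ∧
      ∀ u : FinPlace F, (∀ v : S.places, v ∈ s → u ≠ v) → glPlace u x = 1 by
    obtain ⟨x, hx, h1, h2⟩ := h Finset.univ
    exact ⟨x, hx, fun v => h1 v (Finset.mem_univ v),
      fun u hu => h2 u fun v _ e => hu (by rw [e]; exact v.2)⟩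
  intro s
  induction s using Finset.induction_on with
  | empty => exact ⟨1, one_mem _, by simp, fun u _ => map_one _⟩
  | insert v s hv ih =>
    obtain ⟨x, hx, h1, h2⟩ := ih
    refine ⟨x * localGL (v : FinPlace F) (t v), mul_mem hx (hH v), fun w hw => ?_, fun u hu => ?_⟩
    · rcases Finset.mem_insert.1 hw with rfl | hw'
      · rw [map_mul, glPlace_localGL_same, h2 _ fun a ha e => hv (by rw [Subtype.ext e]; exact ha),
          one_mul]
      · rw [map_mul, h1 w hw', glPlace_localGL_ne fun e => hv (by rw [← Subtype.ext e]; exact hw'),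
          mul_one]
    · rw [map_mul, h2 u fun a ha => hu a (Finset.mem_insert_of_mem ha),
        glPlace_localGL_ne (hu v (Finset.mem_insert_self _ _)), mul_one]

include hS in
/-- The group of the type, place by place. -/
theorem mem_typeSub_ofIdeal {g : GLFin F} :
    g ∈ typeSub S (Level.ofIdeal F I hI) ↔
      (∀ v : S.places, localGL (v : FinPlace F) (glPlace (v : FinPlace F) g) ∈
        typeSub (S.single v) (Level.ofIdeal F I hI)) ∧
      ∀ u, u ∉ S.places → glPlace u g ∈ locLevel I u := by
  constructor
  · intro hg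
    obtain ⟨l, hl, w, hw, rfl⟩ := (mem_typeSub (isTypeLevel_ofIdeal hI hS)).1 hg
    refine ⟨fun v => ?_, fun u hu => ?_⟩
    · rw [map_mul, map_mul]
      refine mul_mem (away_le_typeSub _ _ ?_)
        (level_le_typeSub _ _ (localGL_glPlace_mem_ofIdeal hI hw v))
      exact localGL_mem_awaySub (S.single v) (singlePt S v) (intGL_iff.1 hl.1 v)
    · rw [map_mul, hl.2 u hu, one_mul]
      exact (mem_ofIdeal_iff_forall hI).1 hw u
  · rintro ⟨h1, h2⟩
    obtain ⟨x, hx, hxv, hxu⟩ := exists_glue_local (fun v : S.places => glPlace (v : FinPlace F) g)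
      (typeSub S (Level.ofIdeal F I hI)) fun v : S.places => typeSub_single_le _ v (h1 v)
    have hu : x⁻¹ * g ∈ (Level.ofIdeal F I hI).toSubgroup :=
      (mem_ofIdeal_iff_forall hI).2 fun u => by
        by_cases hu : u ∈ S.places
        · rw [map_mul, map_inv, hxv ⟨u, hu⟩, inv_mul_cancel]
          exact one_mem _
        · rw [map_mul, map_inv, hxu u hu, inv_one, one_mul]
          exact h2 u hu
    rw [← mul_inv_cancel_left x g]
    exact mul_mem hx (level_le_typeSub _ _ hu)

include hS in
/-- The group of the type at one place is stable under keeping only that component. -/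
theorem localGL_glPlace_mem_single (v : S.places) {g : GLFin F}
    (hg : g ∈ typeSub (S.single v) (Level.ofIdeal F I hI)) :
    localGL (v : FinPlace F) (glPlace (v : FinPlace F) g) ∈
      typeSub (S.single v) (Level.ofIdeal F I hI) := by
  obtain ⟨l, hl, w, hw, rfl⟩ := (mem_typeSub (isTypeLevel_single hI hS v)).1 hg
  rw [map_mul, map_mul]
  exact mul_mem (away_le_typeSub _ _
      (localGL_mem_awaySub (S.single v) (singlePt S v) (intGL_iff.1 hl.1 v)))
    (level_le_typeSub _ _ (localGL_glPlace_mem_ofIdeal hI hw v))

include hS in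
/-- The quotient is the product of the local quotients. -/
theorem card_typeQuot_ofIdeal :
    Nat.card (TypeQuot S (Level.ofIdeal F I hI)) =
      ∏ v : S.places, Nat.card (TypeQuot (S.single v) (Level.ofIdeal F I hI)) := by
  rw [← Nat.card_pi]
  let Ψ : TypeQuot S (Level.ofIdeal F I hI) →
      ∀ v : S.places, TypeQuot (S.single v) (Level.ofIdeal F I hI) := fun q v =>
    Quotient.map' (fun g : typeSub S (Level.ofIdeal F I hI) =>
      (⟨localGL (v : FinPlace F) (glPlace (v : FinPlace F) g.1),
        ((mem_typeSub_ofIdeal hI hS).1 g.2).1 v⟩ : typeSub (S.single v) (Level.ofIdeal F I hI)))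
      (fun a b h => by
        rw [QuotientGroup.leftRel_apply] at h ⊢
        rw [Subgroup.mem_subgroupOf] at h ⊢
        have := localGL_glPlace_mem_ofIdeal hI h (v : FinPlace F)
        simpa only [Subgroup.coe_mul, Subgroup.coe_inv, map_mul, map_inv] using this) q
  refine Nat.card_eq_of_bijective Ψ ⟨fun q q' h => ?_, fun t => ?_⟩
  · revert h
    refine QuotientGroup.induction_on q fun a => QuotientGroup.induction_on q' fun b h => ?_
    refine QuotientGroup.eq.2 ?_
    rw [Subgroup.mem_subgroupOf, mem_ofIdeal_iff_forall hI]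
    intro u
    show glPlace u (a.1⁻¹ * b.1) ∈ locLevel I u
    by_cases hu : u ∈ S.places
    · have h1 := QuotientGroup.eq.1 (congrFun h ⟨u, hu⟩)
      rw [Subgroup.mem_subgroupOf] at h1
      have h2 := (mem_ofIdeal_iff_forall hI).1 h1 u
      simpa [glPlace_localGL_same] using h2
    · rw [map_mul, map_inv]
      exact mul_mem (inv_mem (((mem_typeSub_ofIdeal hI hS).1 a.2).2 u hu))
        (((mem_typeSub_ofIdeal hI hS).1 b.2).2 u hu)
  · choose h hh using fun v => QuotientGroup.mk_surjective (t v)
    have hsingle : ∀ v : S.places, localGL (v : FinPlace F) (glPlace (v : FinPlace F) (h v).1) ∈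
        typeSub S (Level.ofIdeal F I hI) := fun v =>
      typeSub_single_le _ v (localGL_glPlace_mem_single hI hS v (h v).2)
    obtain ⟨x, hx, hxv, -⟩ := exists_glue_local
      (fun v : S.places => glPlace (v : FinPlace F) (h v).1) _ hsingle
    refine ⟨QuotientGroup.mk ⟨x, hx⟩, funext fun v => (QuotientGroup.eq.2 ?_).trans (hh v)⟩
    rw [Subgroup.mem_subgroupOf, mem_ofIdeal_iff_forall hI]
    intro u
    show glPlace u ((localGL (v : FinPlace F) (glPlace (v : FinPlace F) x))⁻¹ * (h v).1) ∈ _
    rw [hxv v, map_mul, map_inv]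
    rcases eq_or_ne u (v : FinPlace F) with rfl | hu
    · rw [glPlace_localGL_same, inv_mul_cancel]
      exact one_mem _
    · rw [glPlace_localGL_ne hu, inv_one, one_mul]
      exact ((mem_typeSub_ofIdeal hI (S := S.single v) (fun w hw => by
        rw [Finset.mem_singleton.1 hw]; exact hS _ v.2)).1 (h v).2).2 u
          fun hm => hu (Finset.mem_singleton.1 hm)

/-- The local function of the type. -/
def locVal (ε : Fin 2) (v : S.places) (g : GL (Fin 2) ((v : FinPlace F).adicCompletion F)) : ℂ :=
  cuspVal (S.single v) (Level.ofIdeal F I hI) ε (localGL (v : FinPlace F) g)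

include hS in
theorem locVal_mul (ε : Fin 2) (v : S.places)
    {u g u' : GL (Fin 2) ((v : FinPlace F).adicCompletion F)}
    (hu : u ∈ locLevel I (v : FinPlace F)) (hu' : u' ∈ locLevel I (v : FinPlace F)) :
    locVal hI ε v (u * g * u') = locVal hI ε v g := by
  show cuspVal _ _ _ _ = cuspVal _ _ _ _
  rw [map_mul, map_mul,
    cuspVal_mul_right (isTypeLevel_single hI hS v) ε (localGL_mem_ofIdeal hI hu'),
    cuspVal_mul_left (isTypeLevel_single hI hS v) ε (localGL_mem_ofIdeal hI hu)]

/-- The local kernel of the type. -/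
def cuspKer (ε : Fin 2) (v : S.places) : LocKer I (v : FinPlace F) where
  toFun := Quotient.lift₂ (fun a b => locVal hI ε v (a⁻¹ * b)) fun a b a' b' ha hb => by
    have ha' : a⁻¹ * a' ∈ locLevel I (v : FinPlace F) := QuotientGroup.leftRel_apply.mp ha
    have hb' : b⁻¹ * b' ∈ locLevel I (v : FinPlace F) := QuotientGroup.leftRel_apply.mp hb
    rw [show a'⁻¹ * b' = (a⁻¹ * a')⁻¹ * (a⁻¹ * b) * (b⁻¹ * b') by group,
      locVal_mul hI hS ε v (inv_mem ha') hb']
  smul' g a b := by
    refine QuotientGroup.induction_on a fun x => QuotientGroup.induction_on b fun y => ?_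
    show locVal hI ε v ((g * x)⁻¹ * (g * y)) = locVal hI ε v (x⁻¹ * y)
    congr 1
    group
  finite' a := by
    refine QuotientGroup.induction_on a fun x => ?_
    refine ((finite_image_maxSub (Level.ofIdeal F I hI)).image
      fun c => x • comp (I := I) (v : FinPlace F) c).subset fun b hb => ?_
    revert hb
    refine QuotientGroup.induction_on b fun y hb => ?_
    have hm : localGL (v : FinPlace F) (x⁻¹ * y) ∈ typeSub (S.single v) (Level.ofIdeal F I hI) :=
      by_contra fun h => hb (cuspVal_of_notMem ε h)
    refine ⟨_, ⟨_, typeSub_le_maxSub _ _ hm, rfl⟩, ?_⟩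
    show x • comp (I := I) (v : FinPlace F) (QuotientGroup.mk _) = _
    rw [comp_mk, glPlace_localGL_same, MulAction.Quotient.smul_mk, smul_eq_mul,
      mul_inv_cancel_left]

/-- The local kernel in terms of the local function of the type. -/
theorem cuspKer_mk (ε : Fin 2) (v : S.places)
    (a b : GL (Fin 2) ((v : FinPlace F).adicCompletion F)) :
    (cuspKer hI hS ε v).toFun (QuotientGroup.mk a) (QuotientGroup.mk b) =
      locVal hI ε v (a⁻¹ * b) := rfl

/-- The family of the type. -/
def cuspFam (ε : Fin 2) : KerFam I where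
  ker u := if h : u ∈ S.places then cuspKer hI hS ε ⟨u, h⟩ else 1
  finite' := S.places.finite_toSet.subset fun _u hu => by_contra fun h => hu (dif_neg h)

/-- The family at a place of `S` is the local kernel of the type. -/
theorem cuspFam_ker (ε : Fin 2) (v : S.places) :
    (cuspFam hI hS ε).ker (v : FinPlace F) = cuspKer hI hS ε v := dif_pos v.2

/-- The family is trivial outside `S`. -/
theorem cuspFam_ker_of_notMem (ε : Fin 2) {u : FinPlace F} (hu : u ∉ S.places) :
    (cuspFam hI hS ε).ker u = 1 := dif_neg hu

/-- The product of the local kernels is `e'`. -/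
theorem cuspFam_hecke (ε : Fin 2) :
    (cuspFam hI hS ε).hecke hI = cuspFn (isTypeLevel_ofIdeal hI hS) ε := by
  refine HeckeFn.ext_toFun fun g => ?_
  show (cuspFam hI hS ε).prod hI (QuotientGroup.mk 1) (QuotientGroup.mk g) = cuspVal S _ ε g
  have hat : ∀ v : S.places, ((cuspFam hI hS ε).ker (v : FinPlace F)).toFun
      (comp (v : FinPlace F) (QuotientGroup.mk 1 : KerFam.Cst hI))
      (comp (v : FinPlace F) (QuotientGroup.mk g : KerFam.Cst hI)) =
      locVal hI ε v (glPlace (v : FinPlace F) g) := fun v => by
    rw [cuspFam_ker, comp_mk, comp_mk, map_one, cuspKer_mk, inv_one, one_mul]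
  by_cases hg : g ∈ typeSub S (Level.ofIdeal F I hI)
  · obtain ⟨h1, h2⟩ := (mem_typeSub_ofIdeal hI hS).1 hg
    rw [KerFam.prod_eq_finset _ _ _ (s := S.places) fun u hu => by
        rw [cuspFam_ker_of_notMem hI hS ε hu, comp_mk, comp_mk, map_one,
          show (QuotientGroup.mk (glPlace u g) : LocCosets I u) = QuotientGroup.mk 1 from
            QuotientGroup.eq.2 (by simpa using h2 u hu), LocKer.one_same],
      ← Finset.prod_coe_sort, Finset.prod_congr rfl fun v _ => hat v, cuspVal_of_mem ε hg]
    have hpt : ∀ v : S.places, locVal hI ε v (glPlace (v : FinPlace F) g) =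
        2 / (Nat.card (TypeQuot (S.single v) (Level.ofIdeal F I hI)) : ℂ) *
          coef ε (placePerm S v g) := fun v => by
      rw [locVal, cuspVal_of_mem ε (h1 v), typeConst, coefVec,
        Finset.prod_eq_single (singlePt S v) (fun w _ hw => absurd (eq_singlePt S w) hw)
          (fun h => absurd (Finset.mem_univ _) h),
        show (S.single v).places.card = 1 from Finset.card_singleton _, pow_one]
      congr 2
      exact placePerm_localGL v (singlePt S v) rfl (typeSub_le_maxSub _ _ hg)
    rw [Finset.prod_congr rfl fun v _ => hpt v, Finset.prod_mul_distrib, typeConst,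
      card_typeQuot_ofIdeal hI hS, Nat.cast_prod, Finset.prod_div_distrib, Finset.prod_const,
      Finset.card_univ, Fintype.card_coe]
    rfl
  · rw [cuspVal_of_notMem ε hg]
    by_contra hne
    have hall := (KerFam.prod_ne_zero_iff _ _ _).1 hne
    refine hg ((mem_typeSub_ofIdeal hI hS).2 ⟨fun v => ?_, fun u hu => ?_⟩)
    · have h := hall v
      rw [hat] at h
      exact by_contra fun h' => h (cuspVal_of_notMem ε h')
    · have h := hall u
      rw [cuspFam_ker_of_notMem hI hS ε hu] at h
      have e := LocKer.eq_of_one_ne_zero h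
      rw [comp_mk, comp_mk, map_one, QuotientGroup.eq, inv_one, one_mul] at e
      exact e

omit hI hS in
/-- `e' * e' = e'` in the algebra of Hecke functions. -/
theorem cuspFn_mul_self {U : Level F} (hU : IsTypeLevel S U) (ε : Fin 2) :
    cuspFn hU ε * cuspFn hU ε = cuspFn hU ε := by
  refine HeckeFn.ext_kernel fun a c => ?_
  rw [HeckeFn.kernel_mul]
  refine QuotientGroup.induction_on a fun x => QuotientGroup.induction_on c fun z => ?_
  have h := cuspFn_op hU ε (fun y => (cuspFn hU ε).kernel y.2 (QuotientGroup.mk z))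
    (fun _ => H3.origin) x
  rw [HeckeFn.op_eq_act] at h
  refine h.trans ?_
  rw [HeckeFn.kernel_mk, cuspFn_toFun, ← sum_cuspVal_mul hU ε (x⁻¹ * z)]
  refine Finset.sum_congr rfl fun q _ => ?_
  rw [HeckeFn.kernel_mk, cuspFn_toFun, _root_.mul_inv_rev, mul_assoc]

end Fermat.Agent.LT.CuspType

end
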