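import Mathlib.LinearAlgebra.Matrix.GeneralLinearGroup.Defs
import Mathlib.LinearAlgebra.Matrix.Notation
import Mathlib.Algebra.Field.ZMod
import Mathlib.GroupTheory.Perm.Basic
import Mathlib.Data.Fintype.Perm
import Mathlib.Data.Complex.Basic
import Mathlib.Algebra.BigOperators.Fin
import Mathlib.Algebra.BigOperators.Field
import Mathlib.Tactic.FieldSimp

/-!
# The two dimensional representation of `PGL₂(𝔽₃)` through `S₃`

`GL₂(𝔽₃)` permutes by conjugation the three lines spanned by the square roots of `-1` in `Q₈`.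
`coef ε` is the matrix coefficient of the resulting two dimensional representation at the
`(-1) ^ ε` eigenline of `diag (-1, 1)`.
-/

set_option autoImplicit false

open Matrix

namespace Fermat.Agent.LT.CuspType

/-- The three square roots of `-1` up to sign. -/
def quatUnit : Fin 3 → Matrix (Fin 2) (Fin 2) (ZMod 3) :=
  ![!![0, 2; 1, 0], !![1, 1; 1, 2], !![2, 1; 1, 1]]

/-- `m` maps the line `a` to the line `b`. -/
def MapsLine (m : Matrix (Fin 2) (Fin 2) (ZMod 3)) (a b : Fin 3) : Prop :=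
  m * quatUnit a = quatUnit b * m ∨ m * quatUnit a = -(quatUnit b * m)

/-- `MapsLine` is decidable. -/
instance (m : Matrix (Fin 2) (Fin 2) (ZMod 3)) (a b : Fin 3) : Decidable (MapsLine m a b) :=
  inferInstanceAs (Decidable (_ ∨ _))

theorem existsUnique_mapsLine_entries :
    ∀ p q r s : ZMod 3, p * s - q * r ≠ 0 → ∀ a : Fin 3,
      ∃ b, MapsLine !![p, q; r, s] a b ∧ ∀ b', MapsLine !![p, q; r, s] a b' → b' = b := by
  decide +kernel

theorem existsUnique_mapsLine (m : GL (Fin 2) (ZMod 3)) (a : Fin 3) :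
    ∃! b, MapsLine m.val a b := by
  have hd : m.val.det ≠ 0 := ((Matrix.isUnit_iff_isUnit_det _).mp m.isUnit).ne_zero
  have h := existsUnique_mapsLine_entries (m.val 0 0) (m.val 0 1) (m.val 1 0) (m.val 1 1)
    (by rwa [Matrix.det_fin_two] at hd) a
  rw [← Matrix.eta_fin_two m.val] at h
  exact h

/-- The image of a line. -/
noncomputable def lineImage (m : GL (Fin 2) (ZMod 3)) (a : Fin 3) : Fin 3 :=
  (existsUnique_mapsLine m a).choose

/-- `lineImage m a` is the image of the line `a` under `m`. -/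
theorem mapsLine_lineImage (m : GL (Fin 2) (ZMod 3)) (a : Fin 3) :
    MapsLine m.val a (lineImage m a) := (existsUnique_mapsLine m a).choose_spec.1

theorem lineImage_eq {m : GL (Fin 2) (ZMod 3)} {a b : Fin 3} (h : MapsLine m.val a b) :
    lineImage m a = b := ((existsUnique_mapsLine m a).choose_spec.2 b h).symm

/-- `MapsLine` is compatible with products. -/
theorem MapsLine.mul {m n : Matrix (Fin 2) (Fin 2) (ZMod 3)} {a b c : Fin 3}
    (hn : MapsLine n a b) (hm : MapsLine m b c) : MapsLine (m * n) a c := by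
  rcases hn with h | h <;> rcases hm with h' | h'
  · left; rw [mul_assoc, h, ← mul_assoc, h', mul_assoc]
  · right; rw [mul_assoc, h, ← mul_assoc, h', neg_mul, mul_assoc]
  · right; rw [mul_assoc, h, mul_neg, ← mul_assoc, h', mul_assoc]
  · left; rw [mul_assoc, h, mul_neg, ← mul_assoc, h', neg_mul, neg_neg, mul_assoc]

theorem lineImage_one (a : Fin 3) : lineImage 1 a = a :=
  lineImage_eq (Or.inl (by rw [Units.val_one, one_mul, mul_one]))

theorem lineImage_mul (m n : GL (Fin 2) (ZMod 3)) (a : Fin 3) :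
    lineImage (m * n) a = lineImage m (lineImage n a) :=
  lineImage_eq (by
    rw [Units.val_mul]
    exact (mapsLine_lineImage n a).mul (mapsLine_lineImage m _))

/-- `GL₂(𝔽₃) → S₃`. -/
noncomputable def permThree : GL (Fin 2) (ZMod 3) →* Equiv.Perm (Fin 3) where
  toFun m :=
    { toFun := lineImage m
      invFun := lineImage m⁻¹
      left_inv := fun a => by rw [← lineImage_mul, inv_mul_cancel, lineImage_one]
      right_inv := fun a => by rw [← lineImage_mul, mul_inv_cancel, lineImage_one] }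
  map_one' := Equiv.ext lineImage_one
  map_mul' m n := Equiv.ext fun a => lineImage_mul m n a

/-- `permThree m` is determined by the images of the lines. -/
theorem permThree_eq {m : GL (Fin 2) (ZMod 3)} {σ : Equiv.Perm (Fin 3)}
    (h : ∀ a, MapsLine m.val a (σ a)) : permThree m = σ :=
  Equiv.ext fun a => lineImage_eq (h a)

/-- Scalar matrices fix every line. -/
theorem permThree_scalar {m : GL (Fin 2) (ZMod 3)} {c : ZMod 3}
    (h : m.val = c • (1 : Matrix (Fin 2) (Fin 2) (ZMod 3))) : permThree m = 1 :=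
  permThree_eq fun a => Or.inl (by simp [h])

/-- The image of `diag (-1, 1)`. -/
def flipPerm : Equiv.Perm (Fin 3) := Equiv.swap 1 2

/-- `diag (-1, 1)` acts by `flipPerm`. -/
theorem permThree_diag {m : GL (Fin 2) (ZMod 3)} (h : m.val = !![2, 0; 0, 1]) :
    permThree m = flipPerm :=
  permThree_eq fun a => by
    rw [h]
    revert a
    decide +kernel

/-- The nonzero elements of `1 + (square zero)`. -/
theorem permThree_unipotent {m : GL (Fin 2) (ZMod 3)}
    (hA : (m.val - 1) * (m.val - 1) = 0) (hne : m.val ≠ 1) :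
    ∀ a, permThree m a ≠ a := by
  have key : ∀ p q r s : ZMod 3,
      (!![p, q; r, s] - 1) * (!![p, q; r, s] - 1) = (0 : Matrix (Fin 2) (Fin 2) (ZMod 3)) →
      !![p, q; r, s] ≠ (1 : Matrix (Fin 2) (Fin 2) (ZMod 3)) →
      ∀ a, ¬ MapsLine !![p, q; r, s] a a := by
    decide +kernel
  intro a ha
  have h := mapsLine_lineImage m a
  have ha' : lineImage m a = a := ha
  rw [ha', Matrix.eta_fin_two m.val] at h
  rw [Matrix.eta_fin_two m.val] at hA hne
  exact key _ _ _ _ hA hne a h

/-- A three cycle and `flipPerm` exhaust `S₃`. -/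
theorem exists_pow_mul_flip_pow {r : Equiv.Perm (Fin 3)} (hr : ∀ a, r a ≠ a)
    (σ : Equiv.Perm (Fin 3)) : ∃ i : Fin 3, ∃ j : Fin 2, σ = r ^ (i : ℕ) * flipPerm ^ (j : ℕ) := by
  have h : ∀ r σ : Equiv.Perm (Fin 3), (∀ a, r a ≠ a) →
      ∃ i : Fin 3, ∃ j : Fin 2, σ = r ^ (i : ℕ) * flipPerm ^ (j : ℕ) := by decide +kernel
  exact h r σ hr

/-- The eigenvector of `diag (-1, 1)`. -/
def eigVec (ε : Fin 2) : Fin 3 → ℤ := if ε = 0 then ![2, -1, -1] else ![0, 1, -1]

/-- `⟨τ σ u, u⟩ ‖u‖²`. -/
def coefNum (ε : Fin 2) (σ : Equiv.Perm (Fin 3)) : ℤ := ∑ a, eigVec ε (σ a) * eigVec ε a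

/-- The matrix coefficient at the eigenline. -/
noncomputable def coef (ε : Fin 2) (σ : Equiv.Perm (Fin 3)) : ℂ :=
  (coefNum ε σ : ℂ) / (coefNum ε 1 : ℂ)

theorem coefNum_one_ne_zero : ∀ ε, coefNum ε 1 ≠ 0 := by decide +kernel

/-- The coefficient at `1` is `1`. -/
theorem coef_one (ε : Fin 2) : coef ε 1 = 1 :=
  div_self (by exact_mod_cast coefNum_one_ne_zero ε)

/-- The coefficient is invariant under inversion. -/
theorem coef_inv (ε : Fin 2) (σ : Equiv.Perm (Fin 3)) : coef ε σ⁻¹ = coef ε σ := by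
  have h : ∀ ε σ, coefNum ε σ⁻¹ = coefNum ε σ := by decide +kernel
  simp [coef, h]

/-- The coefficient is real. -/
theorem star_coef (ε : Fin 2) (σ : Equiv.Perm (Fin 3)) : (starRingEnd ℂ) (coef ε σ) = coef ε σ := by
  simp [coef]

/-- Schur orthogonality for the coefficient. -/
theorem sum_coef_mul_coef (ε : Fin 2) (z : Equiv.Perm (Fin 3)) :
    ∑ y, coef ε y * coef ε (y⁻¹ * z) = 3 * coef ε z := by
  have h : ∀ ε z, ∑ y, coefNum ε y * coefNum ε (y⁻¹ * z) = 3 * coefNum ε 1 * coefNum ε z := by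
    decide +kernel
  have hne : (coefNum ε 1 : ℂ) ≠ 0 := by exact_mod_cast coefNum_one_ne_zero ε
  simp only [coef, div_mul_div_comm, ← Finset.sum_div]
  have := congrArg (fun x : ℤ => (x : ℂ)) (h ε z)
  push_cast at this
  rw [this]
  field_simp

/-- A three cycle averages to zero. -/
theorem coef_add_add_eq_zero (ε : Fin 2) (x y : Equiv.Perm (Fin 3)) {r : Equiv.Perm (Fin 3)}
    (hr : ∀ a, r a ≠ a) : coef ε (x * y) + coef ε (x * r * y) + coef ε (x * (r * r) * y) = 0 := by
  have h : ∀ ε (x y r : Equiv.Perm (Fin 3)), (∀ a, r a ≠ a) →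
      coefNum ε (x * y) + coefNum ε (x * r * y) + coefNum ε (x * (r * r) * y) = 0 := by
    decide +kernel
  rw [coef, coef, coef, ← add_div, ← add_div]
  have := congrArg (fun z : ℤ => (z : ℂ)) (h ε x y r hr)
  push_cast at this
  rw [this, zero_div]

/-- `flipPerm` on the left multiplies the coefficient by `(-1) ^ ε`. -/
theorem coef_flip_mul (ε : Fin 2) (σ : Equiv.Perm (Fin 3)) :
    coef ε (flipPerm * σ) = (-1) ^ (ε : ℕ) * coef ε σ := by
  have h : ∀ ε σ, coefNum ε (flipPerm * σ) = (-1) ^ (ε : ℕ) * coefNum ε σ := by decide +kernel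
  simp [coef, h, mul_div_assoc]

/-- `flipPerm` on the right multiplies the coefficient by `(-1) ^ ε`. -/
theorem coef_mul_flip (ε : Fin 2) (σ : Equiv.Perm (Fin 3)) :
    coef ε (σ * flipPerm) = (-1) ^ (ε : ℕ) * coef ε σ := by
  have h : ∀ ε σ, coefNum ε (σ * flipPerm) = (-1) ^ (ε : ℕ) * coefNum ε σ := by decide +kernel
  simp [coef, h, mul_div_assoc]

end Fermat.Agent.LT.CuspType
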