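import Fermat.Agent.LT.CuspType.Perm
import Fermat.Agent.LT.Places.HeckeSetup
import Fermat.Agent.LT.Setup.IdealLevel

/-!
# Reduction at places of residue cardinality three

`placePerm S v` is the image in `S₃` of the reduction at `v` of an element of
`A_f* · GL₂(Ô)`.
-/

set_option autoImplicit false

noncomputable section

open Matrix
open scoped NumberField

namespace Fermat.Agent.LT.CuspType

open Places

variable {F : Type*} [Field F] [NumberField F]

variable (F) in
/-- A finite set of places with three residues. -/
structure ThreeSet where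
  /-- The places. -/
  places : Finset (FinPlace F)
  card_residue : ∀ v ∈ places, Nat.card (Residue v) = 3

variable (S : ThreeSet F)

/-- The residue map at one of the places. -/
def rho (v : S.places) : 𝓞 F →+* ZMod 3 :=
  letI := Fintype.ofFinite (Residue (v : FinPlace F))
  (ZMod.ringEquivOfPrime (Residue (v : FinPlace F)) Nat.prime_three
    (by rw [← Nat.card_eq_fintype_card]; exact S.card_residue v v.2)).symm.toRingHom.comp
      (Ideal.Quotient.mk (v : FinPlace F).asIdeal)

/-- The kernel of `rho S v` is the prime of `v`. -/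
theorem rho_eq_zero_iff (v : S.places) (o : 𝓞 F) :
    rho S v o = 0 ↔ o ∈ (v : FinPlace F).asIdeal := by
  simp [rho, Ideal.Quotient.eq_zero_iff_mem]

/-- `3` lies in the prime of a place of `S`. -/
theorem three_mem (v : S.places) : ((3 : ℕ) : 𝓞 F) ∈ (v : FinPlace F).asIdeal :=
  (rho_eq_zero_iff S v _).mp (by rw [map_natCast]; rfl)

theorem placeVal_three_mul_lt (v : S.places) {y : FinAdele F} (hy : y ∈ integralAdele F) :
    placeVal (v : FinPlace F) ((3 : ℕ) * y) < 1 := by
  rw [placeVal_mul]
  refine (mul_le_of_le_one_right' (placeVal_le_one _ hy)).trans_lt ?_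
  rw [← map_natCast (finIncl F), show ((3 : ℕ) : F) = (((3 : ℕ) : 𝓞 F) : F) from (map_natCast (algebraMap (𝓞 F) F) 3).symm,
    placeVal_finIncl_lt_one_iff]
  exact three_mem S v

/-- An integral representative modulo three. -/
def redRep (x : integralAdele F) : 𝓞 F :=
  (Reduction.exists_integer_add 3 three_pos x.2).choose

theorem redRep_spec (x : integralAdele F) : ∃ y ∈ integralAdele F,
    (x : FinAdele F) = finIncl F (redRep x : F) + (3 : ℕ) * y :=
  (Reduction.exists_integer_add 3 three_pos x.2).choose_spec

theorem rho_eq_of_sub_lt (v : S.places) {o o' : 𝓞 F}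
    (h : placeVal (v : FinPlace F) (finIncl F (o : F) - finIncl F (o' : F)) < 1) :
    rho S v o = rho S v o' := by
  rw [← sub_eq_zero, ← map_sub, rho_eq_zero_iff, ← placeVal_finIncl_lt_one_iff]
  simpa [map_sub] using h

/-- The residue of `redRep x` is that of any integer congruent to `x` at `v`. -/
theorem redRep_congr (v : S.places) (x : integralAdele F) (o : 𝓞 F)
    (h : placeVal (v : FinPlace F) ((x : FinAdele F) - finIncl F (o : F)) < 1) :
    rho S v (redRep x) = rho S v o := by
  obtain ⟨y, hy, e⟩ := redRep_spec x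
  refine rho_eq_of_sub_lt S v ?_
  rw [show finIncl F (redRep x : F) - finIncl F (o : F) =
      ((x : FinAdele F) - finIncl F (o : F)) - (3 : ℕ) * y by rw [e]; ring]
  exact (placeVal_sub_le _ _ _).trans_lt (max_lt h (placeVal_three_mul_lt S v hy))

/-- `redRep x` is congruent to `x` at each place of `S`. -/
theorem placeVal_sub_redRep (v : S.places) (x : integralAdele F) :
    placeVal (v : FinPlace F) ((x : FinAdele F) - finIncl F (redRep x : F)) < 1 := by
  obtain ⟨y, hy, e⟩ := redRep_spec x
  rw [e, add_sub_cancel_left]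
  exact placeVal_three_mul_lt S v hy

/-- Reduction of integral adeles at `v`. -/
def red (v : S.places) : integralAdele F →+* ZMod 3 where
  toFun x := rho S v (redRep x)
  map_one' := by
    rw [← map_one (rho S v)]
    exact redRep_congr S v 1 1 (by simp [placeVal])
  map_zero' := by
    rw [← map_zero (rho S v)]
    exact redRep_congr S v 0 0 (by simp [placeVal])
  map_add' x y := by
    rw [← map_add]
    refine redRep_congr S v _ _ ?_
    rw [show ((x + y : integralAdele F) : FinAdele F) - finIncl F ((redRep x + redRep y : 𝓞 F) : F) =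
      ((x : FinAdele F) - finIncl F (redRep x : F)) + ((y : FinAdele F) - finIncl F (redRep y : F))
      by push_cast [map_add]; ring]
    exact (placeVal_add_le _ _ _).trans_lt
      (max_lt (placeVal_sub_redRep S v x) (placeVal_sub_redRep S v y))
  map_mul' x y := by
    rw [← map_mul]
    refine redRep_congr S v _ _ ?_
    rw [show ((x * y : integralAdele F) : FinAdele F) - finIncl F ((redRep x * redRep y : 𝓞 F) : F) =
      ((x : FinAdele F) - finIncl F (redRep x : F)) * y +
        finIncl F (redRep x : F) * ((y : FinAdele F) - finIncl F (redRep y : F))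
      by push_cast [map_mul]; ring]
    refine (placeVal_add_le _ _ _).trans_lt (max_lt ?_ ?_) <;> rw [placeVal_mul]
    · exact (mul_le_of_le_one_right' (placeVal_le_one _ y.2)).trans_lt (placeVal_sub_redRep S v x)
    · exact (mul_le_of_le_one_left' (placeVal_le_one _
        (Reduction.finIncl_mem_of_isIntegral _))).trans_lt (placeVal_sub_redRep S v y)

/-- The kernel of reduction at `v`. -/
theorem red_eq_zero_iff (v : S.places) (x : integralAdele F) :
    red S v x = 0 ↔ placeVal (v : FinPlace F) (x : FinAdele F) < 1 := by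
  constructor
  · intro h
    have ho := (placeVal_finIncl_lt_one_iff (v : FinPlace F) (redRep x)).mpr
      ((rho_eq_zero_iff S v _).mp h)
    rw [← sub_add_cancel (x : FinAdele F) (finIncl F (redRep x : F))]
    exact (placeVal_add_le _ _ _).trans_lt (max_lt (placeVal_sub_redRep S v x) ho)
  · intro h
    rw [← map_zero (rho S v)]
    exact redRep_congr S v x 0 (by simpa using h)

/-- Reduction at `v` depends only on the component at `v`. -/
theorem red_congr (v : S.places) {x y : integralAdele F}
    (h : toPlace (v : FinPlace F) (x : FinAdele F) = toPlace (v : FinPlace F) (y : FinAdele F)) :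
    red S v x = red S v y := by
  rw [← sub_eq_zero, ← map_sub, red_eq_zero_iff]
  simp [placeVal, h]

variable (F) in
/-- `GL₂(Ô)`. -/
def intSub : Subgroup (GLFin F) where
  carrier := {k | Reduction.IntGL k}
  one_mem' := Reduction.IntGL.one
  mul_mem' := Reduction.IntGL.mul
  inv_mem' := Reduction.IntGL.inv

/-- An element of `GL₂(Ô)` as a matrix over `Ô`. -/
def toIntGL : intSub F →* GL (Fin 2) (integralAdele F) where
  toFun k :=
    { val := Matrix.of fun i j => ⟨k.1.val i j, k.2.1 i j⟩
      inv := Matrix.of fun i j => ⟨(k.1⁻¹).val i j, k.2.2 i j⟩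
      val_inv := Matrix.ext fun i j => Subtype.ext (by
        refine (?_ : _ = (k.1.val * (k.1⁻¹).val) i j).trans ?_
        · simp [Matrix.mul_apply, Fin.sum_univ_two]
        · rw [Units.mul_inv]; simp only [Matrix.one_apply]; split <;> rfl)
      inv_val := Matrix.ext fun i j => Subtype.ext (by
        refine (?_ : _ = ((k.1⁻¹).val * k.1.val) i j).trans ?_
        · simp [Matrix.mul_apply, Fin.sum_univ_two]
        · rw [Units.inv_mul]; simp only [Matrix.one_apply]; split <;> rfl) }
  map_one' := Units.ext (Matrix.ext fun i j => Subtype.ext (by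
    by_cases h : i = j <;> simp [h]))
  map_mul' k l := Units.ext (Matrix.ext fun i j => Subtype.ext (by
    simp [Matrix.mul_apply, Fin.sum_univ_two]))

/-- The entries of `toIntGL k`. -/
theorem toIntGL_apply (k : intSub F) (i j : Fin 2) :
    ((toIntGL k).val i j : FinAdele F) = k.1.val i j := rfl

/-- Reduction of `GL₂(Ô)` at `v`. -/
def redGL (v : S.places) : intSub F →* GL (Fin 2) (ZMod 3) :=
  (Matrix.GeneralLinearGroup.map (red S v)).comp toIntGL

/-- The entries of the reduction at `v`. -/
theorem redGL_apply (v : S.places) (k : intSub F) (i j : Fin 2) :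
    (redGL S v k).val i j = red S v ⟨k.1.val i j, k.2.1 i j⟩ := rfl

theorem redGL_congr (v : S.places) {k l : intSub F}
    (h : glPlace (v : FinPlace F) k.1 = glPlace (v : FinPlace F) l.1) :
    redGL S v k = redGL S v l :=
  Units.ext (Matrix.ext fun i j => red_congr S v (by
    simp only [toIntGL_apply]
    rw [← glPlace_apply, h, glPlace_apply]))

theorem permThree_redGL_scalar (v : S.places) {k : intSub F} {a : (FinAdele F)ˣ}
    (h : k.1 = scalarFin F a) : permThree (redGL S v k) = 1 := by
  have e : ∀ i j, k.1.val i j = if i = j then (a : FinAdele F) else 0 := fun i j => by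
    rw [h]; by_cases hij : i = j <;> simp [scalarFin, hij]
  refine permThree_scalar (c := (redGL S v k).val 0 0) ?_
  have e00 : (redGL S v k).val 1 1 = (redGL S v k).val 0 0 := congrArg (red S v) (Subtype.ext
    ((e 1 1).trans (e 0 0).symm))
  have ez : ∀ i j, i ≠ j → (redGL S v k).val i j = 0 := fun i j hij => by
    rw [redGL_apply, ← map_zero (red S v)]
    exact congrArg (red S v) (Subtype.ext ((e i j).trans (if_neg hij)))
  refine Matrix.ext fun i j => ?_
  fin_cases i <;> fin_cases j <;> simp [e00, ez]

variable (F) in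
/-- `A_f* · GL₂(Ô)`. -/
def maxSub : Subgroup (GLFin F) where
  carrier := {g | ∃ (a : (FinAdele F)ˣ) (k : GLFin F), Reduction.IntGL k ∧ g = scalarFin F a * k}
  one_mem' := ⟨1, 1, Reduction.IntGL.one, by simp⟩
  mul_mem' := by
    rintro g h ⟨a, k, hk, rfl⟩ ⟨b, l, hl, rfl⟩
    exact ⟨a * b, k * l, hk.mul hl, by
      rw [map_mul, mul_assoc, ← mul_assoc k, ← scalarFin_comm b k]; simp only [mul_assoc]⟩
  inv_mem' := by
    rintro g ⟨a, k, hk, rfl⟩
    exact ⟨a⁻¹, k⁻¹, hk.inv, by rw [_root_.mul_inv_rev, ← map_inv, scalarFin_comm]⟩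

/-- Scalar multiples of `GL₂(Ô)` lie in `maxSub F`. -/
theorem scalar_mul_mem_maxSub (a : (FinAdele F)ˣ) {k : GLFin F} (hk : Reduction.IntGL k) :
    scalarFin F a * k ∈ maxSub F := ⟨a, k, hk, rfl⟩

/-- `GL₂(Ô)` lies in `maxSub F`. -/
theorem intSub_le_maxSub {k : GLFin F} (hk : k ∈ intSub F) : k ∈ maxSub F :=
  ⟨1, k, hk, by simp⟩

/-- Every level lies in `maxSub F`. -/
theorem level_le_maxSub (U : Level F) {u : GLFin F} (hu : u ∈ U.toSubgroup) : u ∈ maxSub F := by
  obtain ⟨a, k, hk, rfl⟩ := U.le_maximal u hu
  exact scalar_mul_mem_maxSub a (Reduction.intGL_of_isPrincipal hk)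

open Classical in
/-- The image in `S₃` at `v`. -/
def placePerm (v : S.places) (g : GLFin F) : Equiv.Perm (Fin 3) :=
  if h : ∃ k : intSub F, ∃ a : (FinAdele F)ˣ, g = scalarFin F a * k.1 then
    permThree (redGL S v h.choose) else 1

/-- The permutation of `a * k` is that of the reduction of `k`. -/
theorem placePerm_scalar_mul (v : S.places) (a : (FinAdele F)ˣ) (k : intSub F) :
    placePerm S v (scalarFin F a * k.1) = permThree (redGL S v k) := by
  have h : ∃ l : intSub F, ∃ b : (FinAdele F)ˣ, scalarFin F a * k.1 = scalarFin F b * l.1 :=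
    ⟨k, a, rfl⟩
  rw [placePerm, dif_pos h]
  obtain ⟨b, hb⟩ := h.choose_spec
  generalize h.choose = l at hb ⊢
  have e : (l * k⁻¹ : intSub F).1 = scalarFin F (b⁻¹ * a) := by
    rw [Subgroup.coe_mul, Subgroup.coe_inv, map_mul, map_inv, mul_inv_eq_iff_eq_mul, mul_assoc, hb,
      inv_mul_cancel_left]
  have h1 := permThree_redGL_scalar S v e
  rw [map_mul, map_mul] at h1
  rw [map_inv, map_inv, mul_inv_eq_one] at h1
  exact h1

/-- The permutation of an element of `GL₂(Ô)`. -/
theorem placePerm_int (v : S.places) (k : intSub F) :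
    placePerm S v k.1 = permThree (redGL S v k) := by
  have := placePerm_scalar_mul S v 1 k
  rwa [map_one, one_mul] at this

/-- `placePerm S v` is multiplicative on `maxSub F`. -/
theorem placePerm_mul (v : S.places) {g h : GLFin F} (hg : g ∈ maxSub F) (hh : h ∈ maxSub F) :
    placePerm S v (g * h) = placePerm S v g * placePerm S v h := by
  obtain ⟨a, k, hk, rfl⟩ := hg
  obtain ⟨b, l, hl, rfl⟩ := hh
  have e : scalarFin F a * k * (scalarFin F b * l) =
      scalarFin F (a * b) * ((⟨k, hk⟩ * ⟨l, hl⟩ : intSub F) : GLFin F) := by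
    rw [map_mul, Subgroup.coe_mul, mul_assoc, ← mul_assoc k, ← scalarFin_comm b k]
    simp only [mul_assoc]
  rw [e, placePerm_scalar_mul, map_mul, map_mul, ← placePerm_scalar_mul S v a,
    ← placePerm_scalar_mul S v b]

/-- The permutation of `1` is trivial. -/
theorem placePerm_one (v : S.places) : placePerm S v 1 = 1 := by
  simpa using placePerm_int S v (1 : intSub F)

/-- `placePerm S v` commutes with inverses on `maxSub F`. -/
theorem placePerm_inv (v : S.places) {g : GLFin F} (hg : g ∈ maxSub F) :
    placePerm S v g⁻¹ = (placePerm S v g)⁻¹ :=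
  eq_inv_of_mul_eq_one_left (by
    rw [← placePerm_mul S v ((maxSub F).inv_mem hg) hg, inv_mul_cancel, placePerm_one])

/-- The permutation at `v` depends only on the component at `v`. -/
theorem placePerm_congr (v : S.places) {k l : intSub F}
    (h : glPlace (v : FinPlace F) k.1 = glPlace (v : FinPlace F) l.1) :
    placePerm S v k.1 = placePerm S v l.1 := by
  rw [placePerm_int, placePerm_int, redGL_congr S v h]

end Fermat.Agent.LT.CuspType

end
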